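import Fermat.Agent.DedekindSums.Reciprocity
import Fermat.Agent.PartitionAsymptotic.Generating
import Mathlib.Analysis.SpecialFunctions.Complex.Log

/-!
# The transformation of `η` with Dedekind sums

For coprime `h`, `k`, `h H ≡ -1 (mod k)` and `Re z > 0`,
`η ((h + i z) / k) √z = exp (π i ((h - H) / 12k - s (h, k))) η ((H + i / z) / k)`: induction on `k`
by `τ ↦ -1 / τ`, Dedekind's reciprocity law cancelling the roots of unity. With it the generating
function of the partitions at `exp (2 π i (h + i z) / k)`.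
-/

set_option autoImplicit false

noncomputable section

namespace FA.RademacherPartition

open Complex
open FA.DedekindSums (dedekindSum dedekindSum_neg dedekindSum_congr reciprocity)
open scoped Real

/-- The argument `(h + i z) / k`. -/
def cuspArg (h : ℤ) (k : ℕ) (z : ℂ) : ℂ := ((h : ℂ) + I * z) / k

theorem cuspArg_im {k : ℕ} (h : ℤ) (z : ℂ) : (cuspArg h k z).im = z.re / k := by
  rw [cuspArg, Complex.div_natCast_im]
  simp

theorem cuspArg_im_pos {k : ℕ} (hk : 0 < k) (h : ℤ) {z : ℂ} (hz : 0 < z.re) :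
    0 < (cuspArg h k z).im := by
  rw [cuspArg_im]
  exact div_pos hz (Nat.cast_pos.2 hk)

/-- The root of unity of the transformation, as an exponent. -/
def etaPhase (h H : ℤ) (k : ℕ) : ℚ := ((h : ℚ) - H) / (12 * k) - dedekindSum h k

theorem eta_add_int (z : ℂ) (m : ℤ) :
    ModularForm.eta (z + m) = cexp (π * I * m / 12) * ModularForm.eta z := by
  have h1 : ∀ w : ℂ, ModularForm.eta (w + 1) = cexp (π * I / 12) * ModularForm.eta w := fun w => by
    rw [ModularForm.eta, ModularForm.eta, ← mul_assoc]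
    congr 1
    · rw [Function.Periodic.qParam, Function.Periodic.qParam, ← Complex.exp_add]
      congr 1
      push_cast
      ring
    · refine tprod_congr fun n => ?_
      rw [ModularForm.eta_q_eq_pow, ModularForm.eta_q_eq_pow,
        show 2 * (π : ℂ) * I * (w + 1) = 2 * π * I * w + 2 * π * I by ring,
        Complex.exp_add, Complex.exp_two_pi_mul_I, mul_one]
  induction m using Int.induction_on with
  | zero => simp
  | succ i ih =>
    rw [Int.cast_add, Int.cast_one, ← add_assoc, h1, ih, ← mul_assoc, ← Complex.exp_add]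
    congr 2
    ring
  | pred i ih =>
    have h2 := h1 (z + ((-i - 1 : ℤ) : ℂ))
    rw [show z + ((-i - 1 : ℤ) : ℂ) + 1 = z + ((-i : ℤ) : ℂ) by push_cast; ring, ih] at h2
    refine mul_left_cancel₀ (Complex.exp_ne_zero ((π : ℂ) * I / 12)) (h2.symm.trans ?_)
    rw [← mul_assoc, ← Complex.exp_add]
    congr 2
    push_cast
    ring

/-- The transformation holds at `(h, k)`. -/
def EtaTransforms (h : ℤ) (k : ℕ) : Prop :=
  ∀ (H : ℤ) (z : ℂ), (k : ℤ) ∣ h * H + 1 → 0 < z.re →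
    ModularForm.eta (cuspArg h k z) * z ^ (2⁻¹ : ℂ) =
      cexp (π * I * (etaPhase h H k : ℂ)) * ModularForm.eta (cuspArg H k z⁻¹)

theorem cpow_half_mul {a b : ℂ} (ha : 0 < a.im) (hb : 0 < b.re)
    (hab : 0 < (a * b).re ∨ 0 < (a * b).im) :
    a ^ (2⁻¹ : ℂ) * b ^ (2⁻¹ : ℂ) = (a * b) ^ (2⁻¹ : ℂ) := by
  have ha0 : a ≠ 0 := fun h => by simp [h] at ha
  have hb0 : b ≠ 0 := fun h => by simp [h] at hb
  have h1 := (Complex.abs_arg_lt_pi_div_two_iff).2 (Or.inl hb)
  have h2 : -(π / 2) < (a * b).arg ∧ (a * b).arg ≤ π := by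
    refine ⟨?_, Complex.arg_le_pi _⟩
    rcases hab with h | h
    · exact (abs_lt.1 ((Complex.abs_arg_lt_pi_div_two_iff).2 (Or.inl h))).1
    · linarith [Complex.arg_nonneg_iff.2 h.le, Real.pi_pos]
  rw [abs_lt] at h1
  have h3 : 0 ≤ a.arg := Complex.arg_nonneg_iff.2 ha.le
  have h4 := Complex.arg_le_pi a
  obtain ⟨j, hj⟩ := Real.Angle.angle_eq_iff_two_pi_dvd_sub.1 (Complex.arg_mul_coe_angle ha0 hb0)
  have hj0 : j = 0 := by
    rcases lt_trichotomy j 0 with hlt | h | hgt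
    · have h5 : (j : ℝ) ≤ -1 := by exact_mod_cast (show j ≤ -1 by omega)
      have := mul_le_mul_of_nonneg_left h5 (show 0 ≤ 2 * π by positivity)
      push_cast at hj
      linarith [Real.pi_pos]
    · exact h
    · have h5 : (1 : ℝ) ≤ j := by exact_mod_cast hgt
      have := mul_le_mul_of_nonneg_left h5 (show 0 ≤ 2 * π by positivity)
      push_cast at hj
      linarith [Real.pi_pos]
  rw [hj0, Int.cast_zero, mul_zero, sub_eq_zero] at hj
  have hlog : Complex.log (a * b) = Complex.log a + Complex.log b := by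
    refine Complex.ext ?_ ?_
    · simp only [Complex.log_re, Complex.add_re, norm_mul]
      exact Real.log_mul (norm_ne_zero_iff.2 ha0) (norm_ne_zero_iff.2 hb0)
    · simp only [Complex.log_im, Complex.add_im]
      exact hj
  rw [Complex.cpow_def_of_ne_zero ha0, Complex.cpow_def_of_ne_zero hb0,
    Complex.cpow_def_of_ne_zero (mul_ne_zero ha0 hb0), hlog, ← Complex.exp_add]
  ring_nf

theorem sqrtI_eq : (I : ℂ) ^ (2⁻¹ : ℂ) = cexp (π * I * (1 / 4)) := by
  rw [Complex.cpow_def_of_ne_zero I_ne_zero, Complex.log_I]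
  congr 1
  ring

theorem eta_S {τ : ℂ} (hτ : 0 < τ.im) :
    ModularForm.eta (-1 / τ) = (I ^ (2⁻¹ : ℂ))⁻¹ * (τ ^ (2⁻¹ : ℂ) * ModularForm.eta τ) := by
  have h := ModularForm.eta_comp_eq_csqrt_I_inv (x := τ) hτ
  simpa [Complex.sqrt, Function.comp_apply] using h

theorem etaTransforms_one (h : ℤ) : EtaTransforms h 1 := by
  intro H z _ hz
  have hs : dedekindSum h 1 = 0 := by simp [dedekindSum, FA.DedekindSums.sawtooth]
  have hz0 : z ≠ 0 := fun e => by simp [e] at hz
  have e1 : cuspArg h 1 z = I * z + h := by simp [cuspArg, add_comm]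
  have e2 : cuspArg H 1 z⁻¹ = -1 / (I * z) + H := by
    simp only [cuspArg, Nat.cast_one, div_one]
    rw [add_comm]
    congr 1
    field_simp
    linear_combination (I_sq)
  have hi : 0 < (I * z).im := by simpa using hz
  have hsq : (I * z) ^ (2⁻¹ : ℂ) = I ^ (2⁻¹ : ℂ) * z ^ (2⁻¹ : ℂ) :=
    (cpow_half_mul (by simp) hz (Or.inr hi)).symm
  rw [e1, e2, eta_add_int, eta_add_int, eta_S hi, hsq, etaPhase, hs]
  have hI : I ^ (2⁻¹ : ℂ) ≠ 0 := by rw [sqrtI_eq]; exact Complex.exp_ne_zero _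
  rw [mul_assoc (I ^ (2⁻¹ : ℂ)), inv_mul_cancel_left₀ hI]
  have e3 : cexp (π * I * h / 12) =
      cexp (π * I * ((((h : ℚ) - H) / (12 * (1 : ℕ)) - 0 : ℚ) : ℂ)) * cexp (π * I * H / 12) := by
    rw [← Complex.exp_add]
    congr 1
    push_cast
    ring
  rw [e3]
  ring

theorem etaTransforms_congr {h h' : ℤ} {k : ℕ} [NeZero k] (e : (k : ℤ) ∣ h' - h)
    (ht : EtaTransforms h k) : EtaTransforms h' k := by
  intro H z hH hz
  obtain ⟨j, hj⟩ := e
  have hk : (k : ℂ) ≠ 0 := NeZero.ne _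
  have hH' : (k : ℤ) ∣ h * H + 1 := by
    have e3 : h * H + 1 = h' * H + 1 - (k : ℤ) * (j * H) := by rw [eq_add_of_sub_eq hj]; ring
    rw [e3]
    exact dvd_sub hH (dvd_mul_right _ _)
  have hs : dedekindSum h' k = dedekindSum h k := dedekindSum_congr (by
    rw [eq_add_of_sub_eq hj]
    simp)
  have e1 : cuspArg h' k z = cuspArg h k z + j := by
    rw [cuspArg, cuspArg, eq_add_of_sub_eq hj]
    push_cast
    field_simp
    ring
  rw [e1, eta_add_int, mul_assoc, ht H z hH' hz, ← mul_assoc, ← Complex.exp_add]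
  congr 2
  rw [etaPhase, etaPhase, hs, eq_add_of_sub_eq hj]
  push_cast
  field_simp
  ring

theorem etaTransforms_step {h k : ℕ} (hh : 0 < h) (hk : 0 < k) (hco : Nat.Coprime h k)
    (ht : EtaTransforms (-(k : ℤ)) h) : EtaTransforms h k := by
  intro H z hH hz
  obtain ⟨m, hm⟩ := hH
  obtain ⟨τ, hτd⟩ : ∃ τ, τ = cuspArg h k z := ⟨_, rfl⟩
  have hτ : 0 < τ.im := hτd ▸ cuspArg_im_pos hk h hz
  have hτ0 : τ ≠ 0 := fun e => by simp [e] at hτ
  have hz0 : z ≠ 0 := fun e => by simp [e] at hz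
  have hk0 : (k : ℂ) ≠ 0 := Nat.cast_ne_zero.2 hk.ne'
  have hh0 : (h : ℂ) ≠ 0 := Nat.cast_ne_zero.2 hh.ne'
  obtain ⟨z1, hz1d⟩ : ∃ z1, z1 = z / τ := ⟨_, rfl⟩
  have hτk : (h : ℂ) + I * z = τ * k := by
    rw [hτd, cuspArg, Int.cast_natCast, div_mul_cancel₀ _ hk0]
  have hmul : τ * z1 = z := by rw [hz1d, mul_div_cancel₀ _ hτ0]
  have hz1 : 0 < z1.re := by
    have h1 : z1 = z * k / ((h : ℂ) + I * z) := by
      rw [hz1d, hτk]
      field_simp
    have hne : (h : ℂ) + I * z ≠ 0 := hτk ▸ mul_ne_zero hτ0 hk0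
    rw [h1, Complex.div_re, ← add_div]
    refine div_pos ?_ (Complex.normSq_pos.2 hne)
    have hkh : (0 : ℝ) < k * h * z.re :=
      mul_pos (mul_pos (Nat.cast_pos.2 hk) (Nat.cast_pos.2 hh)) hz
    simp [Complex.mul_re, Complex.mul_im]
    linarith
  have e1 : cuspArg (-(k : ℤ)) h z1 = -1 / τ := by
    rw [cuspArg, hz1d]
    push_cast
    field_simp
    linear_combination hτk
  have e2 : cuspArg m h z1⁻¹ = cuspArg H k z⁻¹ := by
    have hm' : ((h : ℂ) * H + 1) = k * m := by exact_mod_cast hm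
    rw [cuspArg, cuspArg, hz1d, inv_div]
    field_simp
    linear_combination (-z) * hm' - I * hτk + z * I_sq
  have hdvd : (h : ℤ) ∣ -(k : ℤ) * m + 1 := ⟨-H, by linear_combination hm⟩
  have h1 := ht m z1 hdvd hz1
  rw [e1, e2, eta_S hτ] at h1
  have hsq : τ ^ (2⁻¹ : ℂ) * z1 ^ (2⁻¹ : ℂ) = z ^ (2⁻¹ : ℂ) := by
    rw [cpow_half_mul hτ hz1 (Or.inl (hmul.symm ▸ hz)), hmul]
  have hI : I ^ (2⁻¹ : ℂ) ≠ 0 := by rw [sqrtI_eq]; exact Complex.exp_ne_zero _
  have h2 : ModularForm.eta τ * z ^ (2⁻¹ : ℂ) = I ^ (2⁻¹ : ℂ) *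
      (cexp (π * I * (etaPhase (-(k : ℤ)) m h : ℂ)) * ModularForm.eta (cuspArg H k z⁻¹)) := by
    rw [← h1, ← hsq]
    field_simp
  rw [← hτd, h2, sqrtI_eq, ← mul_assoc, ← Complex.exp_add]
  congr 2
  have hphase : 1 / 4 + etaPhase (-(k : ℤ)) m h = etaPhase h H k := by
    have : NeZero h := ⟨hh.ne'⟩
    have hrec := reciprocity hh hk hco
    have hkq : (k : ℚ) ≠ 0 := Nat.cast_ne_zero.2 hk.ne'
    have hhq : (h : ℚ) ≠ 0 := Nat.cast_ne_zero.2 hh.ne'
    have hmq : ((h : ℚ) * H + 1) = k * m := by exact_mod_cast hm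
    rw [etaPhase, etaPhase, dedekindSum_neg]
    push_cast at hrec ⊢
    field_simp at hrec ⊢
    linear_combination hrec + 4 * hmq
  rw [← hphase]
  push_cast
  ring

/-- **The transformation of `η`.** -/
theorem etaTransforms {h : ℤ} {k : ℕ} (hk : 0 < k) (hco : Int.gcd h k = 1) : EtaTransforms h k := by
  induction k using Nat.strong_induction_on generalizing h with
  | _ k ih =>
    have : NeZero k := ⟨hk.ne'⟩
    rcases eq_or_ne k 1 with rfl | hk1
    · exact etaTransforms_one h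
    obtain ⟨a, ha⟩ : ∃ a : ℕ, (a : ℤ) = h % k :=
      ⟨(h % k).toNat, Int.toNat_of_nonneg (Int.emod_nonneg _ (by omega))⟩
    have hak : a < k := by
      have := Int.emod_lt_of_pos h (show (0 : ℤ) < k by omega)
      omega
    have hgcd : Int.gcd (a : ℤ) k = 1 := by
      rw [ha, Int.emod_def, sub_eq_add_neg, ← mul_neg, Int.gcd_add_mul_left_left, hco]
    have hcop : Nat.Coprime a k := by simpa [Int.gcd_natCast_natCast] using hgcd
    have ha0 : 0 < a := Nat.pos_of_ne_zero fun e => hk1 (by simpa [e] using hcop)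
    refine etaTransforms_congr (h := (a : ℤ)) ?_ (etaTransforms_step ha0 hk hcop (ih a hak ha0 ?_))
    · exact ⟨h / k, by rw [ha, Int.emod_def]; ring⟩
    · rw [Int.neg_gcd, Int.gcd_comm]
      exact hgcd

/-- The root of unity of `partGen`. -/
def omegaRoot (h : ℤ) (k : ℕ) : ℂ := cexp (π * I * (dedekindSum h k : ℂ))

theorem norm_omegaRoot (h : ℤ) (k : ℕ) : ‖omegaRoot h k‖ = 1 := by
  rw [omegaRoot, Complex.norm_exp]
  simp

/-- **The transformation of the generating function at a root of unity.** -/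
theorem partGen_cusp {h H : ℤ} {k : ℕ} (hk : 0 < k) (hH : (k : ℤ) ∣ h * H + 1) {z : ℂ}
    (hz : 0 < z.re) :
    PartitionAsymptotic.partGen (cexp (2 * π * I * cuspArg h k z)) =
      omegaRoot h k * z ^ (2⁻¹ : ℂ) * cexp (π / (12 * k) * (z⁻¹ - z)) *
        PartitionAsymptotic.partGen (cexp (2 * π * I * cuspArg H k z⁻¹)) := by
  have hz' : 0 < (z⁻¹).re := by
    rw [Complex.inv_re]
    exact div_pos hz (Complex.normSq_pos.2 fun e => by simp [e] at hz)
  have hco : Int.gcd h k = 1 := by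
    obtain ⟨m, hm⟩ := hH
    refine Int.isCoprime_iff_gcd_eq_one.1 ⟨-H, m, ?_⟩
    linear_combination -hm
  have h1 := PartitionAsymptotic.eta_mul_partGen (cuspArg_im_pos hk h hz)
  have h2 := PartitionAsymptotic.eta_mul_partGen (cuspArg_im_pos hk H hz')
  have hη := etaTransforms hk hco H z hH hz
  have hk0 : (k : ℂ) ≠ 0 := Nat.cast_ne_zero.2 hk.ne'
  have hne : ModularForm.eta (cuspArg h k z) ≠ 0 := ModularForm.eta_ne_zero (cuspArg_im_pos hk h hz)
  refine mul_left_cancel₀ hne ?_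
  rw [h1]
  have key : cexp (π * I * cuspArg h k z / 12) = omegaRoot h k * cexp (π / (12 * k) * (z⁻¹ - z)) *
      (cexp (π * I * (etaPhase h H k : ℂ)) * cexp (π * I * cuspArg H k z⁻¹ / 12)) := by
    rw [omegaRoot, ← Complex.exp_add, ← Complex.exp_add, ← Complex.exp_add]
    congr 1
    rw [etaPhase, cuspArg, cuspArg]
    have hz0 : z ≠ 0 := fun e => by simp [e] at hz
    push_cast
    field_simp
    linear_combination (z ^ 2 - 1) * I_sq
  rw [key, ← h2]
  linear_combination (-(omegaRoot h k * cexp (π / (12 * k) * (z⁻¹ - z)) *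
    PartitionAsymptotic.partGen (cexp (2 * π * I * cuspArg H k z⁻¹)))) * hη

end FA.RademacherPartition
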