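import Mathlib.MeasureTheory.Integral.IntervalIntegral.Periodic
import Mathlib.Data.Int.GCD
import Mathlib.Tactic

/-!
# The dissection of Farey

For `h / k` reduced with `k ≤ N` the arc is bounded by the mediants with the neighbours in the
sequence of order `N`; the denominators of the neighbours are the representatives of `±h'` in
`(N - k, N]`. The map to the right neighbour is a bijection, so the integrals over the arcs
telescope to the integral over a period.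
-/

set_option autoImplicit false

noncomputable section

namespace FA.RademacherPartition

open Finset

/-- Some `H` with `h H ≡ -1 (mod k)`. -/
def cuspInv (k h : ℕ) : ℤ := -Nat.gcdA h k

theorem dvd_mul_cuspInv_add_one {k h : ℕ} (hco : Nat.Coprime h k) :
    (k : ℤ) ∣ (h : ℤ) * cuspInv k h + 1 := by
  refine ⟨Nat.gcdB h k, ?_⟩
  have := Nat.gcd_eq_gcd_ab h k
  rw [hco.gcd_eq_one, Nat.cast_one] at this
  rw [cuspInv]
  linarith

/-- The representative of `a` modulo `k` in `(N - k, N]`. -/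
def windowRep (N k : ℕ) (a : ℤ) : ℤ := (N : ℤ) - ((N : ℤ) - a) % (k : ℤ)

theorem windowRep_spec {N k : ℕ} (hk : 0 < k) (a : ℤ) :
    (N : ℤ) - k < windowRep N k a ∧ windowRep N k a ≤ N ∧ (k : ℤ) ∣ windowRep N k a - a := by
  have h1 := Int.emod_nonneg ((N : ℤ) - a) (show (k : ℤ) ≠ 0 by omega)
  have h2 := Int.emod_lt_of_pos ((N : ℤ) - a) (show (0 : ℤ) < k by omega)
  refine ⟨by rw [windowRep]; omega, by rw [windowRep]; omega, ((N : ℤ) - a) / k, ?_⟩
  rw [windowRep, Int.emod_def]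
  ring

theorem window_unique {N k : ℕ} {x y : ℤ} (hx : (N : ℤ) - k < x) (hx' : x ≤ N)
    (hy : (N : ℤ) - k < y) (hy' : y ≤ N) (hd : (k : ℤ) ∣ x - y) : x = y :=
  eq_of_sub_eq_zero (Int.eq_zero_of_abs_lt_dvd hd (abs_lt.2 ⟨by omega, by omega⟩))

/-- The denominator of the right neighbour of `h / k`. -/
def rightDen (N k h : ℕ) : ℕ := (windowRep N k (cuspInv k h)).toNat

/-- The denominator of the left neighbour of `h / k`. -/
def leftDen (N k h : ℕ) : ℕ := (windowRep N k (-cuspInv k h)).toNat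

/-- The right neighbour, as a pair `(k, h)`. -/
def rightNext (N : ℕ) (p : ℕ × ℕ) : ℕ × ℕ :=
  (rightDen N p.1 p.2, (p.2 * rightDen N p.1 p.2 + 1) / p.1)

/-- The left neighbour, as a pair `(k, h)`. -/
def leftNext (N : ℕ) (p : ℕ × ℕ) : ℕ × ℕ :=
  (leftDen N p.1 p.2, (p.2 * leftDen N p.1 p.2 - 1) / p.1)

/-- The fractions `h / k` in `[0, 1)` of order `N`, as pairs `(k, h)`. -/
def fareyLeft (N : ℕ) : Finset (ℕ × ℕ) :=
  (Icc 1 N ×ˢ range (N + 1)).filter fun p => p.2 < p.1 ∧ Nat.Coprime p.2 p.1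

/-- The fractions `h / k` in `(0, 1]` of order `N`, as pairs `(k, h)`. -/
def fareyRight (N : ℕ) : Finset (ℕ × ℕ) :=
  (Icc 1 N ×ˢ range (N + 1)).filter fun p => 0 < p.2 ∧ p.2 ≤ p.1 ∧ Nat.Coprime p.2 p.1

theorem mem_fareyLeft {N : ℕ} {p : ℕ × ℕ} :
    p ∈ fareyLeft N ↔ 1 ≤ p.1 ∧ p.1 ≤ N ∧ p.2 < p.1 ∧ Nat.Coprime p.2 p.1 := by
  simp only [fareyLeft, mem_filter, mem_product, mem_Icc, mem_range]
  constructor
  · tauto
  · rintro ⟨h1, h2, h3, h4⟩
    exact ⟨⟨⟨h1, h2⟩, by omega⟩, h3, h4⟩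

theorem mem_fareyRight {N : ℕ} {p : ℕ × ℕ} :
    p ∈ fareyRight N ↔ 1 ≤ p.1 ∧ p.1 ≤ N ∧ 0 < p.2 ∧ p.2 ≤ p.1 ∧ Nat.Coprime p.2 p.1 := by
  simp only [fareyRight, mem_filter, mem_product, mem_Icc, mem_range]
  constructor
  · tauto
  · rintro ⟨h1, h2, h3, h4, h5⟩
    exact ⟨⟨⟨h1, h2⟩, by omega⟩, h3, h4, h5⟩

theorem coprime_of_det {k h k' h' : ℕ} (e : h' * k = h * k' + 1) :
    Nat.Coprime h' k' ∧ Nat.Coprime h k := by
  have e' : (h' : ℤ) * k = h * k' + 1 := by exact_mod_cast e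
  constructor
  · exact Nat.isCoprime_iff_coprime.1 ⟨(k : ℤ), -(h : ℤ), by linear_combination e'⟩
  · exact Nat.isCoprime_iff_coprime.1 ⟨-(k' : ℤ), (h' : ℤ), by linear_combination e'⟩

theorem rightDen_spec {N k h : ℕ} (hk : 0 < k) (hkN : k ≤ N) (hco : Nat.Coprime h k) :
    0 < rightDen N k h ∧ rightDen N k h ≤ N ∧ N < k + rightDen N k h ∧
      k ∣ h * rightDen N k h + 1 := by
  obtain ⟨h1, h2, m, hm⟩ := windowRep_spec (N := N) hk (cuspInv k h)
  have hpos : 0 < windowRep N k (cuspInv k h) := by omega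
  have hcast : ((rightDen N k h : ℕ) : ℤ) = windowRep N k (cuspInv k h) := Int.toNat_of_nonneg hpos.le
  refine ⟨by omega, by omega, by omega, Int.natCast_dvd_natCast.1 ?_⟩
  obtain ⟨j, hj⟩ := dvd_mul_cuspInv_add_one hco
  refine ⟨j + h * m, ?_⟩
  push_cast
  rw [hcast]
  linear_combination hj + (h : ℤ) * hm

theorem leftDen_spec {N k h : ℕ} (hk : 0 < k) (hkN : k ≤ N) (hco : Nat.Coprime h k) :
    0 < leftDen N k h ∧ leftDen N k h ≤ N ∧ N < k + leftDen N k h ∧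
      (k : ℤ) ∣ (h : ℤ) * leftDen N k h - 1 := by
  obtain ⟨h1, h2, m, hm⟩ := windowRep_spec (N := N) hk (-cuspInv k h)
  have hpos : 0 < windowRep N k (-cuspInv k h) := by omega
  have hcast : ((leftDen N k h : ℕ) : ℤ) = windowRep N k (-cuspInv k h) := Int.toNat_of_nonneg hpos.le
  refine ⟨by omega, by omega, by omega, ?_⟩
  obtain ⟨j, hj⟩ := dvd_mul_cuspInv_add_one hco
  refine ⟨-j + h * m, ?_⟩
  rw [hcast]
  linear_combination -hj + (h : ℤ) * hm

theorem rightNext_spec {N : ℕ} {p : ℕ × ℕ} (hp : p ∈ fareyLeft N) :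
    rightNext N p ∈ fareyRight N ∧ (rightNext N p).2 * p.1 = p.2 * (rightNext N p).1 + 1 ∧
      leftDen N (rightNext N p).1 (rightNext N p).2 = p.1 := by
  obtain ⟨k, h⟩ := p
  obtain ⟨hk, hkN, hhk, hco⟩ := mem_fareyLeft.1 hp
  dsimp only at hk hkN hhk hco
  obtain ⟨hr0, hrN, hrS, hd⟩ := rightDen_spec (h := h) hk hkN hco
  obtain ⟨k', hk'⟩ : ∃ k', k' = rightDen N k h := ⟨_, rfl⟩
  obtain ⟨h', hh'⟩ : ∃ h', h' = (h * k' + 1) / k := ⟨_, rfl⟩
  rw [← hk'] at hr0 hrN hrS hd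
  have e : h' * k = h * k' + 1 := by rw [hh', Nat.div_mul_cancel hd]
  simp only [rightNext, ← hk', ← hh']
  obtain ⟨hco', -⟩ := coprime_of_det e
  have hh0 : 0 < h' := Nat.pos_of_ne_zero fun z => by simp [z] at e
  have hle : h' ≤ k' := by
    by_contra hcon
    have h1 : (k' + 1) * k ≤ h' * k := Nat.mul_le_mul_right k (Nat.lt_of_not_le hcon)
    have h2 : (h + 1) * k' ≤ k * k' := Nat.mul_le_mul_right k' hhk
    nlinarith
  refine ⟨mem_fareyRight.2 ⟨hr0, hrN, hh0, hle, hco'⟩, e, ?_⟩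
  obtain ⟨hl0, hlN, hlS, hld⟩ := leftDen_spec (h := h') hr0 hrN hco'
  have h3 : (k' : ℤ) ∣ (h' : ℤ) * k - 1 := by
    have e' : (h' : ℤ) * k = h * k' + 1 := by exact_mod_cast e
    exact ⟨h, by linear_combination e'⟩
  have h4 : (k' : ℤ) ∣ (leftDen N k' h' : ℤ) - k := by
    have h5 := dvd_sub hld h3
    rw [show (h' : ℤ) * leftDen N k' h' - 1 - ((h' : ℤ) * k - 1) = (h' : ℤ) * (leftDen N k' h' - k) by
      ring] at h5
    exact (Nat.isCoprime_iff_coprime.2 hco'.symm).dvd_of_dvd_mul_left h5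
  exact_mod_cast window_unique (N := N) (k := k') (x := (leftDen N k' h' : ℤ)) (y := (k : ℤ))
    (by omega) (by omega) (by omega) (by omega) h4

theorem leftNext_spec {N : ℕ} {p : ℕ × ℕ} (hp : p ∈ fareyRight N) :
    leftNext N p ∈ fareyLeft N ∧ p.2 * (leftNext N p).1 = (leftNext N p).2 * p.1 + 1 ∧
      rightDen N (leftNext N p).1 (leftNext N p).2 = p.1 := by
  obtain ⟨k, h⟩ := p
  obtain ⟨hk, hkN, hh0, hhk, hco⟩ := mem_fareyRight.1 hp
  dsimp only at hk hkN hh0 hhk hco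
  obtain ⟨hl0, hlN, hlS, hld⟩ := leftDen_spec (h := h) hk hkN hco
  obtain ⟨k', hk'⟩ : ∃ k', k' = leftDen N k h := ⟨_, rfl⟩
  obtain ⟨h', hh'⟩ : ∃ h', h' = (h * k' - 1) / k := ⟨_, rfl⟩
  rw [← hk'] at hl0 hlN hlS hld
  have hd : k ∣ h * k' - 1 := by
    refine Int.natCast_dvd_natCast.1 ?_
    rwa [Nat.cast_sub (Nat.one_le_iff_ne_zero.2 (mul_ne_zero hh0.ne' hl0.ne')), Nat.cast_mul,
      Nat.cast_one]
  have e : h * k' = h' * k + 1 := by
    have h1 := Nat.one_le_iff_ne_zero.2 (mul_ne_zero hh0.ne' hl0.ne')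
    rw [hh', Nat.div_mul_cancel hd]
    omega
  simp only [leftNext, ← hk', ← hh']
  obtain ⟨-, hco'⟩ := coprime_of_det e
  have hlt : h' < k' := by
    by_contra hcon
    have h1 : k' * k ≤ h' * k := Nat.mul_le_mul_right k (Nat.le_of_not_lt hcon)
    have h2 : h * k' ≤ k * k' := Nat.mul_le_mul_right k' hhk
    nlinarith
  refine ⟨mem_fareyLeft.2 ⟨hl0, hlN, hlt, hco'⟩, e, ?_⟩
  obtain ⟨hr0, hrN, hrS, hrd⟩ := rightDen_spec (h := h') hl0 hlN hco'
  have hrd' : (k' : ℤ) ∣ (h' : ℤ) * rightDen N k' h' + 1 := by exact_mod_cast hrd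
  have h3 : (k' : ℤ) ∣ (h' : ℤ) * k + 1 := by
    have e' : (h : ℤ) * k' = h' * k + 1 := by exact_mod_cast e
    exact ⟨h, by linear_combination -e'⟩
  have h4 : (k' : ℤ) ∣ (rightDen N k' h' : ℤ) - k := by
    have h5 := dvd_sub hrd' h3
    rw [show (h' : ℤ) * rightDen N k' h' + 1 - ((h' : ℤ) * k + 1) =
      (h' : ℤ) * (rightDen N k' h' - k) by ring] at h5
    exact (Nat.isCoprime_iff_coprime.2 hco'.symm).dvd_of_dvd_mul_left h5
  exact_mod_cast window_unique (N := N) (k := k') (x := (rightDen N k' h' : ℤ)) (y := (k : ℤ))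
    (by omega) (by omega) (by omega) (by omega) h4

/-- The left end of the arc. -/
def arcLeft (N : ℕ) (p : ℕ × ℕ) : ℝ :=
  (p.2 : ℝ) / p.1 - 1 / ((p.1 : ℝ) * ((p.1 : ℝ) + leftDen N p.1 p.2))

/-- The right end of the arc. -/
def arcRight (N : ℕ) (p : ℕ × ℕ) : ℝ :=
  (p.2 : ℝ) / p.1 + 1 / ((p.1 : ℝ) * ((p.1 : ℝ) + rightDen N p.1 p.2))

theorem arcRight_eq_arcLeft {N : ℕ} {p : ℕ × ℕ} (hp : p ∈ fareyLeft N) :
    arcRight N p = arcLeft N (rightNext N p) := by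
  obtain ⟨h1, h2, h3⟩ := rightNext_spec hp
  have hk : (0 : ℝ) < p.1 := Nat.cast_pos.2 (mem_fareyLeft.1 hp).1
  have hk' : (0 : ℝ) < (rightNext N p).1 := Nat.cast_pos.2 (mem_fareyRight.1 h1).1
  have e : ((rightNext N p).2 : ℝ) * p.1 = p.2 * (rightNext N p).1 + 1 := by exact_mod_cast h2
  have hsum : (0 : ℝ) < (p.1 : ℝ) + (rightNext N p).1 := by linarith
  rw [arcRight, arcLeft, h3, show rightDen N p.1 p.2 = (rightNext N p).1 from rfl,
    add_comm ((rightNext N p).1 : ℝ)]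
  field_simp
  linear_combination (-((p.1 : ℝ) + (rightNext N p).1)) * e

/-- **The telescope of the arcs.** -/
theorem sum_arc_sub {M : Type*} [AddCommGroup M] (G : ℝ → M) {N : ℕ} (hN : 0 < N) :
    ∑ p ∈ fareyLeft N, (G (arcRight N p) - G (arcLeft N p)) =
      G (1 - 1 / ((N : ℝ) + 1)) - G (-(1 / ((N : ℝ) + 1))) := by
  have hshift : ∑ p ∈ fareyLeft N, G (arcRight N p) = ∑ p ∈ fareyRight N, G (arcLeft N p) := by
    refine sum_nbij' (rightNext N) (leftNext N) (fun p hp => (rightNext_spec hp).1)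
      (fun p hp => (leftNext_spec hp).1) (fun p hp => ?_) (fun p hp => ?_)
      (fun p hp => by rw [arcRight_eq_arcLeft hp])
    · obtain ⟨h1, h2, h3⟩ := rightNext_spec hp
      obtain ⟨-, h4, -⟩ := leftNext_spec h1
      have e1 : (leftNext N (rightNext N p)).1 = p.1 := h3
      rw [e1] at h4
      refine Prod.ext e1 ?_
      exact Nat.eq_of_mul_eq_mul_right (mem_fareyRight.1 h1).1 (by linarith)
    · obtain ⟨h1, h2, h3⟩ := leftNext_spec hp
      obtain ⟨-, h4, -⟩ := rightNext_spec h1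
      have e1 : (rightNext N (leftNext N p)).1 = p.1 := h3
      rw [e1] at h4
      refine Prod.ext e1 ?_
      exact Nat.eq_of_mul_eq_mul_right (mem_fareyLeft.1 h1).1 (by linarith)
  have h0 : ((1 : ℕ), (0 : ℕ)) ∈ fareyLeft N := mem_fareyLeft.2 ⟨le_rfl, hN, one_pos, by simp⟩
  have h1 : ((1 : ℕ), (1 : ℕ)) ∈ fareyRight N :=
    mem_fareyRight.2 ⟨le_rfl, hN, one_pos, le_rfl, by simp⟩
  have herase : (fareyLeft N).erase (1, 0) = (fareyRight N).erase (1, 1) := by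
    ext ⟨k, h⟩
    simp only [mem_erase, mem_fareyLeft, mem_fareyRight, ne_eq, Prod.mk.injEq]
    constructor
    · rintro ⟨hne, hk, hkN, hhk, hco⟩
      have : 0 < h := Nat.pos_of_ne_zero fun e => hne ⟨by simpa [e] using hco, e⟩
      exact ⟨fun e => by omega, hk, hkN, this, hhk.le, hco⟩
    · rintro ⟨hne, hk, hkN, hh, hhk, hco⟩
      refine ⟨fun e => by omega, hk, hkN, lt_of_le_of_ne hhk fun e => hne ?_, hco⟩
      subst e
      have : h = 1 := by simpa using hco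
      exact ⟨this, this⟩
  have hw : ∀ h : ℕ, leftDen N 1 h = N := fun h => by
    obtain ⟨-, h2, h3, -⟩ := leftDen_spec (h := h) one_pos hN (Nat.coprime_one_right h)
    omega
  rw [sum_sub_distrib, hshift, ← add_sum_erase _ _ h1, ← add_sum_erase _ _ h0, herase,
    add_sub_add_right_eq_sub]
  simp only [arcLeft, hw]
  push_cast
  congr 2 <;> ring

theorem sum_arc_length {N : ℕ} (hN : 0 < N) :
    ∑ p ∈ fareyLeft N, (arcRight N p - arcLeft N p) = 1 := by
  rw [sum_arc_sub (fun x : ℝ => x) hN]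
  ring

/-- **The integral over a period, cut along the arcs.** -/
theorem integral_period_eq_sum_arcs {F : ℝ → ℂ} (hF : Continuous F) (hper : Function.Periodic F 1)
    {N : ℕ} (hN : 0 < N) (a : ℝ) :
    ∫ x in a..a + 1, F x = ∑ p ∈ fareyLeft N, ∫ x in arcLeft N p..arcRight N p, F x := by
  have e : ∀ p : ℕ × ℕ, ∫ x in arcLeft N p..arcRight N p, F x =
      (∫ x in (0 : ℝ)..arcRight N p, F x) - ∫ x in (0 : ℝ)..arcLeft N p, F x := fun p =>
    (intervalIntegral.integral_interval_sub_left (hF.intervalIntegrable _ _)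
      (hF.intervalIntegrable _ _)).symm
  rw [sum_congr rfl fun p _ => e p, sum_arc_sub (fun x => ∫ t in (0 : ℝ)..x, F t) hN,
    intervalIntegral.integral_interval_sub_left (hF.intervalIntegrable _ _)
      (hF.intervalIntegrable _ _),
    hper.intervalIntegral_add_eq a (-(1 / ((N : ℝ) + 1)))]
  congr 1
  ring

/-- The sums over `h / k` of order `N`. -/
theorem sum_fareyLeft {M : Type*} [AddCommMonoid M] (f : ℕ → ℕ → M) (N : ℕ) :
    ∑ p ∈ fareyLeft N, f p.1 p.2 =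
      ∑ k ∈ Icc 1 N, ∑ h ∈ (range k).filter (fun h => Nat.Coprime h k), f k h := by
  rw [fareyLeft, sum_filter, sum_product]
  refine sum_congr rfl fun k hk => ?_
  rw [← sum_filter]
  refine sum_congr ?_ fun _ _ => rfl
  rw [mem_Icc] at hk
  ext h
  simp only [mem_filter, mem_range]
  constructor
  · rintro ⟨-, h2, h3⟩
    exact ⟨h2, h3⟩
  · rintro ⟨h2, h3⟩
    exact ⟨by omega, h2, h3⟩

/-- The ends of an arc, as offsets from `h / k`. -/
theorem arc_offsets {N k h : ℕ} (hk : 0 < k) (hkN : k ≤ N) (hco : Nat.Coprime h k) :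
    1 / (2 * (k : ℝ) * N) ≤ 1 / ((k : ℝ) * ((k : ℝ) + rightDen N k h)) ∧
      1 / ((k : ℝ) * ((k : ℝ) + rightDen N k h)) ≤ 1 / ((k : ℝ) * N) ∧
      1 / (2 * (k : ℝ) * N) ≤ 1 / ((k : ℝ) * ((k : ℝ) + leftDen N k h)) ∧
      1 / ((k : ℝ) * ((k : ℝ) + leftDen N k h)) ≤ 1 / ((k : ℝ) * N) := by
  have hk0 : (0 : ℝ) < k := Nat.cast_pos.2 hk
  have hN0 : (0 : ℝ) < N := Nat.cast_pos.2 (by omega)
  have key : ∀ r : ℕ, r ≤ N → N < k + r →
      1 / (2 * (k : ℝ) * N) ≤ 1 / ((k : ℝ) * ((k : ℝ) + r)) ∧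
        1 / ((k : ℝ) * ((k : ℝ) + r)) ≤ 1 / ((k : ℝ) * N) := fun r h1 h2 => by
    have h1' : (r : ℝ) ≤ N := Nat.cast_le.2 h1
    have h2' : (N : ℝ) ≤ (k : ℝ) + r := by exact_mod_cast h2.le
    have hkN' : (k : ℝ) ≤ N := Nat.cast_le.2 hkN
    refine ⟨one_div_le_one_div_of_le (by positivity) ?_,
      one_div_le_one_div_of_le (by positivity) (mul_le_mul_of_nonneg_left h2' hk0.le)⟩
    rw [show 2 * (k : ℝ) * N = k * (2 * N) by ring]
    exact mul_le_mul_of_nonneg_left (by linarith) hk0.le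
  obtain ⟨-, a1, a2, -⟩ := rightDen_spec (h := h) hk hkN hco
  obtain ⟨-, b1, b2, -⟩ := leftDen_spec (h := h) hk hkN hco
  exact ⟨(key _ a1 a2).1, (key _ a1 a2).2, (key _ b1 b2).1, (key _ b1 b2).2⟩

end FA.RademacherPartition
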