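import Fermat.Agent.RademacherPartition.Arc
import Fermat.Agent.RademacherPartition.Eta
import Fermat.Agent.RademacherPartition.Farey
import Fermat.Agent.PartitionAsymptotic.Circle

/-!
# Rademacher's series for `p(n)`

The integral for `p(n)` at height `1 / N ^ 2`, cut along the arcs of Farey, is the sum of the main
terms up to `O (N ^ (-1/2))`. The terms of the series are `O (k ^ (-3/2))`, so it converges
absolutely, with an explicit remainder.
-/

set_option autoImplicit false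

noncomputable section

namespace FA.RademacherPartition

open Complex MeasureTheory Filter Finset
open FA.PartitionGrowth (partCount)
open FA.PartitionAsymptotic (partGen circleFun integral_circleFun continuous_circleFun)
open FA.DedekindSums (dedekindSum)
open scoped Real Topology

/-- `A_k(n)`. -/
def rademacherSum (k n : ℕ) : ℂ := ∑ h ∈ (range k).filter (fun h => Nat.Coprime h k),
  cexp (π * I * (dedekindSum h k : ℂ) - 2 * π * I * n * h / k)

/-- `sinh ((π / k) √(2/3 (x - 1/24))) / √(x - 1/24)`. -/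
def rademacherFun (k : ℕ) (x : ℝ) : ℝ :=
  Real.sinh (π / k * √(2 / 3 * (x - 1 / 24))) / √(x - 1 / 24)

/-- The root of unity of an arc. -/
def arcRoot (n k h : ℕ) : ℂ := omegaRoot h k * cexp (-(2 * π * I * n * h / k))

/-- The contribution of one arc. -/
def arcValue (n k : ℕ) : ℂ :=
  ((2 * π * besselFun (2 * π * ((n : ℝ) - 1 / 24) / k) (π / (12 * k)) : ℝ) : ℂ) / k

theorem rademacherSum_eq (k n : ℕ) :
    rademacherSum k n = ∑ h ∈ (range k).filter (fun h => Nat.Coprime h k), arcRoot n k h := by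
  refine sum_congr rfl fun h _ => ?_
  rw [arcRoot, omegaRoot, ← Complex.exp_add, ← sub_eq_add_neg]

theorem norm_arcRoot (n k h : ℕ) : ‖arcRoot n k h‖ = 1 := by
  rw [arcRoot, norm_mul, norm_omegaRoot, one_mul, Complex.norm_exp]
  simp

theorem norm_rademacherSum_le (k n : ℕ) : ‖rademacherSum k n‖ ≤ k := by
  rw [rademacherSum_eq]
  refine (norm_sum_le _ _).trans ?_
  simp only [norm_arcRoot, sum_const, nsmul_eq_mul, mul_one]
  exact Nat.cast_le.2 ((card_filter_le _ _).trans (card_range k).le)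

/-- The integrand at height `y`. -/
def heightFun (n : ℕ) (y x : ℝ) : ℂ :=
  partGen (cexp (2 * π * I * ((x : ℂ) + y * I))) * cexp (-(2 * π * I * n * ((x : ℂ) + y * I)))

theorem heightFun_eq (n : ℕ) (y x : ℝ) :
    heightFun n y x = circleFun n (2 * π * y) (-(2 * π) * x) := by
  rw [heightFun, circleFun]
  congr 1
  · congr 2
    push_cast
    linear_combination (2 * (π : ℂ) * y) * I_sq
  · congr 1
    push_cast
    linear_combination (-(2 * (π : ℂ) * n * y)) * I_sq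

theorem continuous_heightFun (n : ℕ) {y : ℝ} (hy : 0 < y) : Continuous (heightFun n y) := by
  rw [funext (heightFun_eq n y)]
  exact (continuous_circleFun (by positivity)).comp (by fun_prop)

theorem periodic_heightFun (n : ℕ) (y : ℝ) : Function.Periodic (heightFun n y) 1 := fun x => by
  rw [heightFun, heightFun]
  congr 1
  · congr 1
    rw [show 2 * (π : ℂ) * I * (((x + 1 : ℝ) : ℂ) + y * I) =
      2 * π * I * ((x : ℂ) + y * I) + 2 * π * I by push_cast; ring, Complex.exp_add,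
      Complex.exp_two_pi_mul_I, mul_one]
  · rw [show -(2 * (π : ℂ) * I * n * (((x + 1 : ℝ) : ℂ) + y * I)) =
      -(2 * π * I * n * ((x : ℂ) + y * I)) + ((-n : ℤ) : ℂ) * (2 * π * I) by push_cast; ring,
      Complex.exp_add, Complex.exp_int_mul_two_pi_mul_I, mul_one]

theorem integral_heightFun (n : ℕ) {y : ℝ} (hy : 0 < y) :
    ∫ x in (-(1 / 2) : ℝ)..-(1 / 2) + 1, heightFun n y x = (partCount n : ℂ) := by
  rw [funext (heightFun_eq n y), intervalIntegral.integral_comp_mul_left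
    (fun θ => circleFun n (2 * π * y) θ) (show (-(2 * π) : ℝ) ≠ 0 by
      have := Real.pi_pos
      linarith), show (-(2 * π) : ℝ) * -(1 / 2) = π by ring,
    show (-(2 * π) : ℝ) * (-(1 / 2) + 1) = -π by ring, intervalIntegral.integral_symm,
    integral_circleFun n (by positivity), Complex.real_smul]
  push_cast
  have : (π : ℂ) ≠ 0 := Complex.ofReal_ne_zero.2 Real.pi_ne_zero
  field_simp

theorem heightFun_arc {n k h : ℕ} (hk : 0 < k) (hco : Nat.Coprime h k) {y : ℝ} (hy : 0 < y) (φ : ℝ) :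
    heightFun n y ((h : ℝ) / k + φ) = arcRoot n k h *
      (mainTerm (2 * π * ((n : ℝ) - 1 / 24) / k) (π / (12 * k)) (arcPoint k y φ) *
        partGen (cexp (2 * π * I * cuspArg (cuspInv k h) k (arcPoint k y φ)⁻¹))) := by
  have hk0 : (k : ℂ) ≠ 0 := Nat.cast_ne_zero.2 hk.ne'
  have hz : 0 < (arcPoint k y φ).re := by
    rw [arcPoint_re]
    exact mul_pos (Nat.cast_pos.2 hk) hy
  have e : (((h : ℝ) / k + φ : ℝ) : ℂ) + y * I = cuspArg h k (arcPoint k y φ) := by
    rw [cuspArg, arcPoint]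
    push_cast
    field_simp
    linear_combination ((k : ℂ) * φ) * I_sq
  have hz0 : arcPoint k y φ ≠ 0 := arcPoint_ne_zero (Nat.cast_pos.2 hk) hy φ
  rw [heightFun, e, partGen_cusp hk (dvd_mul_cuspInv_add_one hco) hz, arcRoot, mainTerm]
  have key : cexp (π / (12 * k) * ((arcPoint k y φ)⁻¹ - arcPoint k y φ)) *
      cexp (-(2 * π * I * n * cuspArg h k (arcPoint k y φ))) =
      cexp (-(2 * π * I * n * h / k)) * cexp (((π / (12 * k) : ℝ) : ℂ) / arcPoint k y φ +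
        ((2 * π * ((n : ℝ) - 1 / 24) / k : ℝ) : ℂ) * arcPoint k y φ) := by
    rw [← Complex.exp_add, ← Complex.exp_add]
    congr 1
    rw [cuspArg]
    push_cast
    generalize arcPoint k y φ = z at hz0 ⊢
    field_simp
    linear_combination (-576 * (n : ℂ) * z ^ 2) * I_sq
  linear_combination (omegaRoot h k * arcPoint k y φ ^ (2⁻¹ : ℂ) *
    partGen (cexp (2 * π * I * cuspArg (cuspInv k h) k (arcPoint k y φ)⁻¹))) * key

theorem normSq_arcPoint (k y φ : ℝ) : Complex.normSq (arcPoint k y φ) = k ^ 2 * (y ^ 2 + φ ^ 2) := by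
  rw [Complex.normSq_apply, arcPoint_re, arcPoint_im]
  ring

theorem inv_arcPoint_re (k y φ : ℝ) :
    ((arcPoint k y φ)⁻¹).re = k * y / (k ^ 2 * (y ^ 2 + φ ^ 2)) := by
  rw [Complex.inv_re, normSq_arcPoint, arcPoint_re]

theorem inv_arcPoint_im (k y φ : ℝ) :
    ((arcPoint k y φ)⁻¹).im = k * φ / (k ^ 2 * (y ^ 2 + φ ^ 2)) := by
  rw [Complex.inv_im, normSq_arcPoint, arcPoint_im, neg_neg]

theorem normSq_arcPoint_le {N k : ℕ} (hk : 0 < k) (hkN : k ≤ N) {φ : ℝ}
    (hφ : |φ| ≤ 1 / ((k : ℝ) * N)) :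
    (k : ℝ) ^ 2 * ((1 / (N : ℝ) ^ 2) ^ 2 + φ ^ 2) ≤ 2 / (N : ℝ) ^ 2 := by
  have hk0 : (0 : ℝ) < k := Nat.cast_pos.2 hk
  have hN0 : (0 : ℝ) < N := Nat.cast_pos.2 (by omega)
  have h1 : (k : ℝ) ^ 2 * φ ^ 2 ≤ 1 / (N : ℝ) ^ 2 := by
    rw [← sq_abs φ]
    refine (mul_le_mul_of_nonneg_left (pow_le_pow_left₀ (abs_nonneg φ) hφ 2) (by positivity)).trans
      (le_of_eq ?_)
    field_simp
  have h2 : (k : ℝ) ^ 2 * (1 / (N : ℝ) ^ 2) ^ 2 ≤ 1 / (N : ℝ) ^ 2 := by
    refine (mul_le_mul_of_nonneg_right (pow_le_pow_left₀ hk0.le (Nat.cast_le.2 hkN) 2)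
      (by positivity)).trans (le_of_eq ?_)
    field_simp
  rw [mul_add, show 2 / (N : ℝ) ^ 2 = 1 / (N : ℝ) ^ 2 + 1 / (N : ℝ) ^ 2 by ring]
  linarith

/-- The error of the expansion at a cusp. -/
theorem norm_cusp_error_le {n N k h : ℕ} (hn : 0 < n) (hk : 0 < k) (hkN : k ≤ N) {K : ℝ}
    (hK : ∀ q : ℂ, ‖q‖ ≤ 1 / 2 → ‖partGen q - 1‖ ≤ K * ‖q‖) (hK0 : 0 ≤ K) {φ : ℝ}
    (hφ : |φ| ≤ 1 / ((k : ℝ) * N)) :
    ‖mainTerm (2 * π * ((n : ℝ) - 1 / 24) / k) (π / (12 * k)) (arcPoint k (1 / (N : ℝ) ^ 2) φ) *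
        (partGen (cexp (2 * π * I * cuspArg (cuspInv k h) k (arcPoint k (1 / (N : ℝ) ^ 2) φ)⁻¹)) - 1)‖ ≤
      2 * K * Real.exp (2 * π * n) / √(N : ℝ) := by
  have hk0 : (0 : ℝ) < k := Nat.cast_pos.2 hk
  have hN0 : (0 : ℝ) < N := Nat.cast_pos.2 (by omega)
  have hN1 : (1 : ℝ) ≤ N := Nat.one_le_cast.2 (by omega)
  have hn1 : (1 : ℝ) ≤ n := Nat.one_le_cast.2 hn
  obtain ⟨y, hy⟩ : ∃ y, y = 1 / (N : ℝ) ^ 2 := ⟨_, rfl⟩
  rw [← hy]
  have hy0 : 0 < y := hy ▸ by positivity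
  have hsq := normSq_arcPoint_le hk hkN hφ
  rw [← hy, ← normSq_arcPoint] at hsq
  obtain ⟨z, hz⟩ : ∃ z, z = arcPoint k y φ := ⟨_, rfl⟩
  rw [← hz] at hsq ⊢
  have hzre : z.re = k * y := hz ▸ arcPoint_re _ _ _
  have hpos : 0 < Complex.normSq z :=
    Complex.normSq_pos.2 (hz ▸ arcPoint_ne_zero hk0 hy0 φ)
  obtain ⟨r, hr⟩ : ∃ r, r = (z⁻¹).re := ⟨_, rfl⟩
  have hrk : (k : ℝ) / 2 ≤ r := by
    rw [hr, Complex.inv_re, hzre, le_div_iff₀ hpos]
    refine (mul_le_mul_of_nonneg_left hsq (by positivity)).trans (le_of_eq ?_)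
    rw [hy]
    field_simp
  have hnorm : ‖z‖ ≤ 2 / N := by
    refine le_of_pow_le_pow_left₀ two_ne_zero (by positivity) ?_
    rw [Complex.sq_norm, div_pow]
    exact hsq.trans (div_le_div_of_nonneg_right (by norm_num) (by positivity))
  have hexp : ‖cexp (2 * π * I * cuspArg (cuspInv k h) k z⁻¹)‖ = Real.exp (-(2 * π * (r / k))) := by
    rw [Complex.norm_exp, hr, ← cuspArg_im (cuspInv k h)]
    congr 1
    simp
  have hhalf : Real.exp (-(2 * π * (r / k))) ≤ 1 / 2 := by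
    refine (Real.exp_le_exp.2 (show -(2 * π * (r / k)) ≤ -1 from ?_)).trans ?_
    · have h1 : 1 / 2 ≤ r / k := by rw [le_div_iff₀ hk0]; linarith
      nlinarith [Real.pi_gt_three]
    · rw [Real.exp_neg, one_div]
      exact inv_anti₀ two_pos (by linarith [Real.add_one_le_exp (1 : ℝ)])
  rw [norm_mul]
  refine (mul_le_mul_of_nonneg_left ((hK _ (hexp.trans_le hhalf)).trans_eq (by rw [hexp]))
    (norm_nonneg _)).trans ?_
  rw [mainTerm, norm_mul, norm_cpow_half, Complex.norm_exp, div_eq_mul_inv _ z, Complex.add_re,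
    Complex.re_ofReal_mul, Complex.re_ofReal_mul, ← hr, hzre]
  have hsqrt : √‖z‖ ≤ 2 / √(N : ℝ) := by
    refine (Real.sqrt_le_sqrt hnorm).trans ?_
    rw [Real.sqrt_div two_pos.le]
    exact div_le_div_of_nonneg_right (by rw [Real.sqrt_le_iff]; norm_num) (Real.sqrt_nonneg _)
  have hval : π / (12 * k) * r + 2 * π * ((n : ℝ) - 1 / 24) / k * (k * y) - 2 * π * (r / k) ≤
      2 * π * n := by
    have h1 : 2 * π * ((n : ℝ) - 1 / 24) / k * (k * y) ≤ 2 * π * n := by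
      rw [← mul_assoc, div_mul_cancel₀ _ hk0.ne']
      refine (mul_le_mul_of_nonneg_left (show y ≤ 1 from ?_) ?_).trans ?_
      · rw [hy, div_le_one (by positivity)]
        exact one_le_pow₀ hN1
      · nlinarith [Real.pi_pos]
      · nlinarith [Real.pi_pos]
    have h2 : π / (12 * k) * r ≤ 2 * π * (r / k) := by
      rw [show π / (12 * k) * r = π / 12 * (r / k) by ring]
      exact mul_le_mul_of_nonneg_right (by linarith [Real.pi_pos])
        (div_nonneg (le_trans (by positivity) hrk) hk0.le)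
    linarith
  calc _ = √‖z‖ * K * Real.exp (π / (12 * k) * r + 2 * π * ((n : ℝ) - 1 / 24) / k * (k * y) -
        2 * π * (r / k)) := by
        rw [sub_eq_add_neg (π / (12 * k) * r + 2 * π * ((n : ℝ) - 1 / 24) / k * (k * y)) (2 * π * (r / k)),
          Real.exp_add (π / (12 * k) * r + 2 * π * ((n : ℝ) - 1 / 24) / k * (k * y)) (-(2 * π * (r / k)))]
        ring
    _ ≤ 2 / √(N : ℝ) * K * Real.exp (2 * π * n) :=
        mul_le_mul (mul_le_mul_of_nonneg_right hsqrt hK0) (Real.exp_le_exp.2 hval) (Real.exp_pos _).le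
          (by positivity)
    _ = _ := by ring

/-- **One arc.** -/
theorem norm_arc_sub_value_le {n N k h : ℕ} (hn : 0 < n) (hN : 4 ≤ N) (hk : 0 < k) (hkN : k ≤ N)
    (hco : Nat.Coprime h k) {K : ℝ} (hK : ∀ q : ℂ, ‖q‖ ≤ 1 / 2 → ‖partGen q - 1‖ ≤ K * ‖q‖)
    (hK0 : 0 ≤ K) :
    ‖(∫ x in arcLeft N (k, h)..arcRight N (k, h), heightFun n (1 / (N : ℝ) ^ 2) x) -
        arcRoot n k h * arcValue n k‖ ≤
      2 * K * Real.exp (2 * π * n) / √(N : ℝ) * (arcRight N (k, h) - arcLeft N (k, h)) +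
        16 * Real.exp (2 + 2 * π * n) / ((N : ℝ) * √(N : ℝ)) / k := by
  have hk0 : (0 : ℝ) < k := Nat.cast_pos.2 hk
  have hk1 : (1 : ℝ) ≤ k := Nat.one_le_cast.2 hk
  have hN0 : (0 : ℝ) < N := Nat.cast_pos.2 (by omega)
  have hn1 : (1 : ℝ) ≤ n := Nat.one_le_cast.2 hn
  obtain ⟨hr1, hr2, hl1, hl2⟩ := arc_offsets (N := N) hk hkN hco
  obtain ⟨δr, hδr⟩ : ∃ d, d = 1 / ((k : ℝ) * ((k : ℝ) + rightDen N k h)) := ⟨_, rfl⟩
  obtain ⟨δl, hδl⟩ : ∃ d, d = 1 / ((k : ℝ) * ((k : ℝ) + leftDen N k h)) := ⟨_, rfl⟩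
  rw [← hδr] at hr1 hr2
  rw [← hδl] at hl1 hl2
  obtain ⟨y, hy⟩ : ∃ y, y = 1 / (N : ℝ) ^ 2 := ⟨_, rfl⟩
  rw [← hy]
  have hy0 : 0 < y := hy ▸ by positivity
  obtain ⟨a, ha⟩ : ∃ a, a = 2 * π * ((n : ℝ) - 1 / 24) / k := ⟨_, rfl⟩
  obtain ⟨b, hb⟩ : ∃ b, b = π / (12 * k) := ⟨_, rfl⟩
  have ha0 : 0 < a := ha ▸ div_pos (mul_pos (by positivity) (by linarith)) hk0
  have hb0 : 0 < b := hb ▸ by positivity
  have hδr0 : 0 ≤ δr := hδr ▸ by positivity
  have hδl0 : 0 ≤ δl := hδl ▸ by positivity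
  have e1 : arcLeft N (k, h) = (h : ℝ) / k + -δl := by rw [arcLeft, hδl, sub_eq_add_neg]
  have e2 : arcRight N (k, h) = (h : ℝ) / k + δr := by rw [arcRight, hδr]
  rw [e1, e2, ← intervalIntegral.integral_comp_add_left (fun x => heightFun n y x) ((h : ℝ) / k),
    show (h : ℝ) / k + δr - ((h : ℝ) / k + -δl) = δr + δl by ring]
  obtain ⟨E, hE⟩ : ∃ E : ℝ → ℂ, E = fun φ => arcRoot n k h * (mainTerm a b (arcPoint k y φ) *
      (partGen (cexp (2 * π * I * cuspArg (cuspInv k h) k (arcPoint k y φ)⁻¹)) - 1)) := ⟨_, rfl⟩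
  have hsplit : ∀ φ, heightFun n y ((h : ℝ) / k + φ) =
      arcRoot n k h * mainTerm a b (arcPoint k y φ) + E φ := fun φ => by
    rw [heightFun_arc hk hco hy0, hE, ← ha, ← hb]
    ring
  have hcm : Continuous fun φ : ℝ => arcRoot n k h * mainTerm a b (arcPoint k y φ) :=
    continuous_const.mul (continuous_mainTerm_arc a b hk0 hy0)
  have hcE : Continuous E := by
    have h1 : Continuous fun φ : ℝ =>
        heightFun n y ((h : ℝ) / k + φ) - arcRoot n k h * mainTerm a b (arcPoint k y φ) :=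
      ((continuous_heightFun n hy0).comp (by fun_prop)).sub hcm
    exact h1.congr fun φ => by rw [hsplit φ, add_sub_cancel_left]
  rw [intervalIntegral.integral_congr (fun φ _ => hsplit φ),
    intervalIntegral.integral_add (hcm.intervalIntegrable _ _) (hcE.intervalIntegrable _ _),
    intervalIntegral.integral_const_mul]
  have herr : ‖∫ φ in (-δl)..δr, E φ‖ ≤ 2 * K * Real.exp (2 * π * n) / √(N : ℝ) * (δr + δl) := by
    refine (intervalIntegral.norm_integral_le_of_norm_le_const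
      (C := 2 * K * Real.exp (2 * π * n) / √(N : ℝ)) fun φ hφ => ?_).trans (le_of_eq ?_)
    · rw [Set.uIoc_of_le (by linarith)] at hφ
      rw [hE, norm_mul, norm_arcRoot, one_mul, hy, ha, hb]
      exact norm_cusp_error_le hn hk hkN hK hK0 (abs_le.2 ⟨by linarith [hφ.1], by linarith [hφ.2]⟩)
    · rw [sub_neg_eq_add, abs_of_nonneg (by linarith)]
  have hend : ∀ δ, 1 / (2 * (k : ℝ) * N) ≤ δ → δ ≤ 1 / ((k : ℝ) * N) →
      b * ((k : ℝ) * y / ((k : ℝ) ^ 2 * (y ^ 2 + δ ^ 2))) ≤ 2 ∧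
        (N : ℝ) / 4 ≤ (k : ℝ) * δ / ((k : ℝ) ^ 2 * (y ^ 2 + δ ^ 2)) := fun δ h1 h2 => by
    have hδ0 : 0 < δ := lt_of_lt_of_le (by positivity) h1
    constructor
    · have h3 : (k : ℝ) * y / ((k : ℝ) ^ 2 * (y ^ 2 + δ ^ 2)) ≤ 4 * k := by
        refine (div_le_div_of_nonneg_left (by positivity)
          (show 0 < (k : ℝ) ^ 2 * (1 / (2 * (k : ℝ) * N)) ^ 2 by positivity)
          (mul_le_mul_of_nonneg_left ((pow_le_pow_left₀ (by positivity) h1 2).trans
            (le_add_of_nonneg_left (sq_nonneg y))) (by positivity))).trans (le_of_eq ?_)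
        rw [hy]
        field_simp
        ring
      refine (mul_le_mul_of_nonneg_left h3 hb0.le).trans ?_
      rw [hb]
      field_simp
      linarith [Real.pi_lt_d2]
    · have h3 := normSq_arcPoint_le hk hkN (φ := δ) (by rwa [abs_of_pos hδ0])
      rw [← hy] at h3
      refine le_of_eq_of_le ?_ ((div_le_div_of_nonneg_left (show (0 : ℝ) ≤ k * (1 / (2 * (k : ℝ) * N)) by
        positivity) (by positivity) h3).trans (div_le_div_of_nonneg_right
          (mul_le_mul_of_nonneg_left h1 hk0.le) (by positivity)))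
      field_simp
      ring
  obtain ⟨hU₂, hv₂⟩ := hend δr hr1 hr2
  obtain ⟨hU₁, hv₁⟩ := hend δl hl1 hl2
  have hmain := norm_arc_sub_line_le (a := a) (b := b) (k := k) (y := y) (U := 2) (v := (N : ℝ) / 4)
    (φ₁ := -δl) (φ₂ := δr) ha0.le hb0.le hk0 hy0
    (by rw [le_div_iff₀ (by norm_num)]; norm_num; exact hN)
    (by rw [inv_arcPoint_re, neg_sq]; exact hU₁) (by rw [inv_arcPoint_re]; exact hU₂)
    (by rw [inv_arcPoint_im, neg_sq, mul_neg, neg_div, neg_neg]; exact hv₁)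
    (by rw [inv_arcPoint_im]; exact hv₂)
  rw [integral_kern_line ha0] at hmain
  have hval : arcValue n k = ((2 * π * besselFun a b : ℝ) : ℂ) / ((k : ℝ) : ℂ) := by
    rw [arcValue, ha, hb, Complex.ofReal_natCast]
  rw [hval]
  have ha2 : a ≤ 2 * π * n := by
    rw [ha, div_le_iff₀ hk0]
    nlinarith [Real.pi_pos, mul_le_mul_of_nonneg_left hk1 (show (0 : ℝ) ≤ 2 * π * n by positivity)]
  calc _ = ‖arcRoot n k h * ((∫ φ in (-δl)..δr, mainTerm a b (arcPoint k y φ)) -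
        ((2 * π * besselFun a b : ℝ) : ℂ) / ((k : ℝ) : ℂ)) + ∫ φ in (-δl)..δr, E φ‖ := by ring_nf
    _ ≤ 2 * Real.exp (2 + a) / ((N : ℝ) / 4 * √((N : ℝ) / 4)) / k +
        2 * K * Real.exp (2 * π * n) / √(N : ℝ) * (δr + δl) := by
      refine (norm_add_le _ _).trans (add_le_add ?_ herr)
      rw [norm_mul, norm_arcRoot, one_mul]
      exact hmain
    _ ≤ _ := by
      rw [add_comm]
      refine add_le_add le_rfl (div_le_div_of_nonneg_right ?_ hk0.le)
      rw [Real.sqrt_div hN0.le, show √(4 : ℝ) = 2 by rw [Real.sqrt_eq_iff_mul_self_eq] <;> norm_num,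
        show (N : ℝ) / 4 * (√(N : ℝ) / 2) = (N : ℝ) * √(N : ℝ) / 8 by ring, div_div_eq_mul_div]
      refine div_le_div_of_nonneg_right ?_ (by positivity)
      linarith [Real.exp_le_exp.2 (add_le_add (le_refl (2 : ℝ)) ha2)]

/-- The dissection gives the partial sums up to `O (N ^ (-1/2))`. -/
theorem exists_partCount_sub_sum_le {n : ℕ} (hn : 0 < n) : ∃ C : ℝ, ∀ N : ℕ, 4 ≤ N →
    ‖(partCount n : ℂ) - ∑ k ∈ Icc 1 N, rademacherSum k n * arcValue n k‖ ≤ C / √(N : ℝ) := by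
  obtain ⟨K, hK0, hK⟩ := FA.PartitionAsymptotic.exists_norm_partGen_sub_one_le
  refine ⟨2 * K * Real.exp (2 * π * n) + 16 * Real.exp (2 + 2 * π * n), fun N hN => ?_⟩
  have hN0 : (0 : ℝ) < N := Nat.cast_pos.2 (by omega)
  have hy : (0 : ℝ) < 1 / (N : ℝ) ^ 2 := by positivity
  have h1 : ∑ k ∈ Icc 1 N, rademacherSum k n * arcValue n k =
      ∑ p ∈ fareyLeft N, arcRoot n p.1 p.2 * arcValue n p.1 := by
    rw [sum_fareyLeft (fun k h => arcRoot n k h * arcValue n k)]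
    exact sum_congr rfl fun k _ => by rw [rademacherSum_eq, sum_mul]
  rw [← integral_heightFun n hy, integral_period_eq_sum_arcs (continuous_heightFun n hy)
    (periodic_heightFun n _) (show 0 < N by omega) _, h1, ← sum_sub_distrib]
  refine (norm_sum_le _ _).trans ((sum_le_sum (g := fun p : ℕ × ℕ =>
    2 * K * Real.exp (2 * π * n) / √(N : ℝ) * (arcRight N p - arcLeft N p) +
      16 * Real.exp (2 + 2 * π * n) / ((N : ℝ) * √(N : ℝ)) / (p.1 : ℝ)) fun p hp => ?_).trans ?_)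
  · obtain ⟨hk, hkN, -, hco⟩ := mem_fareyLeft.1 hp
    exact norm_arc_sub_value_le (k := p.1) (h := p.2) hn hN hk hkN hco hK hK0.le
  · rw [sum_add_distrib, ← mul_sum, sum_arc_length (show 0 < N by omega), mul_one]
    have hcount : ∑ p ∈ fareyLeft N, ((p.1 : ℝ))⁻¹ ≤ N := by
      rw [sum_fareyLeft (fun k _ => ((k : ℝ))⁻¹)]
      refine (sum_le_sum (g := fun _ => (1 : ℝ)) fun k hk => ?_).trans (le_of_eq ?_)
      · rw [sum_const, nsmul_eq_mul]
        have hk0 : (0 : ℝ) < k := Nat.cast_pos.2 (mem_Icc.1 hk).1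
        rw [← div_eq_mul_inv, div_le_one hk0]
        exact Nat.cast_le.2 ((card_filter_le _ _).trans (card_range k).le)
      · simp
    simp only [div_eq_mul_inv _ ((_ : ℕ) : ℝ)]
    rw [← mul_sum, add_div]
    refine add_le_add le_rfl ((mul_le_mul_of_nonneg_left hcount (by positivity)).trans (le_of_eq ?_))
    field_simp

theorem hasDerivAt_rademacherFun (k : ℕ) {x : ℝ} (hx : 1 / 24 < x) :
    HasDerivAt (rademacherFun k) ((π / k * √(2 / 3 * (x - 1 / 24)) *
      Real.cosh (π / k * √(2 / 3 * (x - 1 / 24))) - Real.sinh (π / k * √(2 / 3 * (x - 1 / 24)))) /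
        (2 * √(x - 1 / 24) ^ 3)) x := by
  obtain ⟨c, hc⟩ : ∃ c, c = π / k * √(2 / 3) := ⟨_, rfl⟩
  have e : ∀ y : ℝ, π / k * √(2 / 3 * (y - 1 / 24)) = c * √(y - 1 / 24) := fun y => by
    rw [hc, Real.sqrt_mul (by norm_num), mul_assoc]
  rw [show rademacherFun k = fun y => Real.sinh (c * √(y - 1 / 24)) / √(y - 1 / 24) from
    funext fun y => by rw [rademacherFun, e], e]
  have h0 : 0 < √(x - 1 / 24) := Real.sqrt_pos.2 (by linarith)
  have hg : HasDerivAt (fun y : ℝ => √(y - 1 / 24)) (1 / (2 * √(x - 1 / 24))) x :=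
    ((hasDerivAt_id x).sub_const _).sqrt (by simp; linarith)
  refine ((hg.const_mul c).sinh.div hg h0.ne').congr_deriv ?_
  field_simp

theorem arcValue_eq {n k : ℕ} (hn : 0 < n) (hk : 0 < k) :
    ((√(k : ℝ) * deriv (rademacherFun k) n : ℝ) : ℂ) = ((π * √2 : ℝ) : ℂ) * arcValue n k := by
  have hn1 : (1 : ℝ) ≤ n := Nat.one_le_cast.2 hn
  have hk0 : (0 : ℝ) < k := Nat.cast_pos.2 hk
  obtain ⟨s, hs⟩ : ∃ s, s = √((n : ℝ) - 1 / 24) := ⟨_, rfl⟩
  have hs0 : 0 < s := hs ▸ Real.sqrt_pos.2 (by linarith)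
  have ha : √(2 * π * ((n : ℝ) - 1 / 24) / k) = √2 * √π * s / √(k : ℝ) := by
    rw [Real.sqrt_div' _ hk0.le, Real.sqrt_mul (by positivity), Real.sqrt_mul two_pos.le, hs]
  have hu : 2 * √(2 * π * ((n : ℝ) - 1 / 24) / k * (π / (12 * k))) =
      π / k * √(2 / 3 * ((n : ℝ) - 1 / 24)) := by
    have h0 : 0 ≤ (n : ℝ) - 1 / 24 := by linarith
    refine (sq_eq_sq₀ (by positivity) (by positivity)).1 ?_
    rw [mul_pow, mul_pow, Real.sq_sqrt (mul_nonneg (div_nonneg (mul_nonneg (by positivity) h0) hk0.le)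
      (by positivity)), Real.sq_sqrt (by positivity)]
    field_simp
    ring
  rw [(hasDerivAt_rademacherFun k (show 1 / 24 < (n : ℝ) by linarith)).deriv, arcValue,
    ← Complex.ofReal_natCast k, ← Complex.ofReal_div, ← Complex.ofReal_mul, Complex.ofReal_inj,
    besselFun, hu, ha, ← hs]
  have h1 : √π * √π = π := Real.mul_self_sqrt Real.pi_pos.le
  have h2 : √(k : ℝ) * √(k : ℝ) = k := Real.mul_self_sqrt hk0.le
  have h3 : √2 * √2 = (2 : ℝ) := Real.mul_self_sqrt two_pos.le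
  generalize π / k * √(2 / 3 * ((n : ℝ) - 1 / 24)) = u
  generalize u * Real.cosh u - Real.sinh u = w
  have hπ : 0 < √π := Real.sqrt_pos.2 Real.pi_pos
  have hsk : 0 < √(k : ℝ) := Real.sqrt_pos.2 hk0
  field_simp
  rw [show (√2 : ℝ) ^ 2 = 2 by rw [sq, h3], show √π ^ 4 = π ^ 2 by
    rw [show √π ^ 4 = (√π * √π) ^ 2 by ring, h1], show √(k : ℝ) ^ 2 = (k : ℝ) by rw [sq, h2]]
  ring

theorem abs_rademacherTerm_le {n k : ℕ} (hn : 0 < n) (hk : 0 < k) :
    |√(k : ℝ) * deriv (rademacherFun k) n| ≤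
      3 * Real.exp (π * √(2 * (n : ℝ) / 3) / k) * (√(k : ℝ) / (k : ℝ) ^ 3) := by
  have hn1 : (1 : ℝ) ≤ n := Nat.one_le_cast.2 hn
  have hk0 : (0 : ℝ) < k := Nat.cast_pos.2 hk
  obtain ⟨s, hs⟩ : ∃ s, s = √((n : ℝ) - 1 / 24) := ⟨_, rfl⟩
  have hs0 : 0 < s := hs ▸ Real.sqrt_pos.2 (by linarith)
  obtain ⟨c, hc⟩ : ∃ c, c = π / k * √(2 / 3) := ⟨_, rfl⟩
  have hc0 : 0 < c := hc ▸ by positivity
  have e : π / k * √(2 / 3 * ((n : ℝ) - 1 / 24)) = c * s := by
    rw [hc, hs, Real.sqrt_mul (by norm_num), mul_assoc]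
  rw [(hasDerivAt_rademacherFun k (show 1 / 24 < (n : ℝ) by linarith)).deriv, e, ← hs]
  have hu0 : 0 ≤ c * s := by positivity
  have hw : c * s * Real.cosh (c * s) - Real.sinh (c * s) ≤ (c * s) ^ 3 / 3 * Real.cosh (c * s) := by
    refine hasSum_le (fun m => ?_) (hasSum_cosh_sub_sinh (c * s))
      ((Real.hasSum_cosh (c * s)).mul_left _)
    have hf : ((2 * m + 3).factorial : ℝ) =
        (2 * (m : ℝ) + 3) * (2 * m + 2) * (2 * m + 1) * ((2 * m).factorial : ℝ) := by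
      rw [show 2 * m + 3 = 2 * m + 1 + 1 + 1 by ring, Nat.factorial_succ, Nat.factorial_succ,
        Nat.factorial_succ]
      push_cast
      ring
    rw [hf, show (c * s) ^ 3 / 3 * ((c * s) ^ (2 * m) / ((2 * m).factorial : ℝ)) =
      (c * s) ^ (2 * m + 3) / (3 * ((2 * m).factorial : ℝ)) by rw [pow_add]; ring,
      div_le_div_iff₀ (by positivity) (by positivity)]
    have h0 : 0 ≤ (c * s) ^ (2 * m + 3) * ((2 * m).factorial : ℝ) := by positivity
    nlinarith [mul_le_mul_of_nonneg_left (show 6 * ((m : ℝ) + 1) ≤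
      (2 * (m : ℝ) + 3) * (2 * m + 2) * (2 * m + 1) by nlinarith [sq_nonneg (m : ℝ)]) h0]
  have hcosh : Real.cosh (c * s) ≤ Real.exp (π * √(2 * (n : ℝ) / 3) / k) := by
    have h1 : c * s ≤ π * √(2 * (n : ℝ) / 3) / k := by
      rw [← e, div_mul_eq_mul_div]
      exact div_le_div_of_nonneg_right (mul_le_mul_of_nonneg_left (Real.sqrt_le_sqrt (by linarith))
        Real.pi_pos.le) hk0.le
    have h2 : Real.exp (-(c * s)) ≤ Real.exp (c * s) := Real.exp_le_exp.2 (by linarith)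
    rw [Real.cosh_eq]
    linarith [Real.exp_le_exp.2 h1]
  have hc3 : c ^ 3 / 6 ≤ 3 / (k : ℝ) ^ 3 := by
    rw [hc, mul_pow, div_pow, pow_succ √(2 / 3 : ℝ), Real.sq_sqrt (by norm_num)]
    have h1 : π ^ 3 ≤ 32 := by
      have := pow_le_pow_left₀ Real.pi_pos.le Real.pi_lt_d2.le 3
      norm_num at this ⊢
      linarith
    have h2 : √(2 / 3 : ℝ) ≤ 5 / 6 := by rw [Real.sqrt_le_iff]; norm_num
    rw [div_mul_eq_mul_div, div_div, div_le_div_iff₀ (by positivity) (by positivity)]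
    have h3 : π ^ 3 * (2 / 3 * √(2 / 3 : ℝ)) ≤ 32 * (2 / 3 * (5 / 6)) :=
      mul_le_mul h1 (by linarith) (by positivity) (by norm_num)
    nlinarith [pow_pos hk0 3]
  rw [abs_mul, abs_of_nonneg (Real.sqrt_nonneg _),
    abs_of_nonneg (div_nonneg (cosh_sub_sinh_nonneg hu0) (by positivity))]
  calc √(k : ℝ) * ((c * s * Real.cosh (c * s) - Real.sinh (c * s)) / (2 * s ^ 3))
      ≤ √(k : ℝ) * ((c * s) ^ 3 / 3 * Real.cosh (c * s) / (2 * s ^ 3)) :=
        mul_le_mul_of_nonneg_left (div_le_div_of_nonneg_right hw (by positivity)) (Real.sqrt_nonneg _)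
    _ = √(k : ℝ) * (c ^ 3 / 6 * Real.cosh (c * s)) := by field_simp; ring
    _ ≤ √(k : ℝ) * (3 / (k : ℝ) ^ 3 * Real.exp (π * √(2 * (n : ℝ) / 3) / k)) :=
        mul_le_mul_of_nonneg_left (mul_le_mul hc3 hcosh (Real.cosh_pos _).le (by positivity))
          (Real.sqrt_nonneg _)
    _ = _ := by ring

/-- The term of the series. -/
def rademacherTerm (n k : ℕ) : ℂ :=
  (√(k : ℝ) : ℂ) * rademacherSum k n * ((deriv (rademacherFun k) (n : ℝ) : ℝ) : ℂ)

theorem norm_rademacherTerm_le {n k : ℕ} (hn : 0 < n) (hk : 0 < k) :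
    ‖rademacherTerm n k‖ ≤ 3 * Real.exp (π * √(2 * (n : ℝ) / 3) / k) * (1 / ((k : ℝ) * √(k : ℝ))) := by
  have hk0 : (0 : ℝ) < k := Nat.cast_pos.2 hk
  rw [rademacherTerm, mul_right_comm, ← Complex.ofReal_mul, norm_mul, Complex.norm_real, Real.norm_eq_abs]
  refine (mul_le_mul (abs_rademacherTerm_le hn hk) (norm_rademacherSum_le k n) (norm_nonneg _)
    (by positivity)).trans (le_of_eq ?_)
  have hsk : √(k : ℝ) ≠ 0 := (Real.sqrt_pos.2 hk0).ne'
  have h2 : √(k : ℝ) ^ 2 = k := Real.sq_sqrt hk0.le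
  field_simp
  rw [h2]

theorem sum_Ioc_inv_mul_sqrt_le {N M : ℕ} (hN : 0 < N) (hNM : N ≤ M) :
    ∑ k ∈ Ioc N M, 1 / ((k : ℝ) * √(k : ℝ)) ≤ 2 / √(N : ℝ) - 2 / √(M : ℝ) := by
  induction M, hNM using Nat.le_induction with
  | base => simp
  | succ M hM ih =>
    rw [sum_Ioc_succ_top hM]
    have ha : 0 < √(M : ℝ) := Real.sqrt_pos.2 (Nat.cast_pos.2 (by omega))
    obtain ⟨b, hb⟩ : ∃ b, b = √((M + 1 : ℕ) : ℝ) := ⟨_, rfl⟩
    have hab : √(M : ℝ) ≤ b := hb ▸ Real.sqrt_le_sqrt (by push_cast; linarith)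
    have hb2 : b * b = ((M + 1 : ℕ) : ℝ) := hb ▸ Real.mul_self_sqrt (Nat.cast_nonneg _)
    have ha2 : √(M : ℝ) * √(M : ℝ) = M := Real.mul_self_sqrt (Nat.cast_nonneg _)
    rw [← hb, ← hb2]
    have hb0 : 0 < b := ha.trans_le hab
    have key : 1 / (b * b * b) ≤ 2 / √(M : ℝ) - 2 / b := by
      rw [div_sub_div _ _ ha.ne' hb0.ne', div_le_div_iff₀ (by positivity) (by positivity)]
      have h1 : (b - √(M : ℝ)) * (b + √(M : ℝ)) = 1 := by
        push_cast at hb2
        linear_combination hb2 - ha2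
      have h2 : 1 ≤ (b - √(M : ℝ)) * (2 * b) :=
        h1.symm.le.trans (mul_le_mul_of_nonneg_left (by linarith) (by linarith))
      nlinarith [mul_le_mul_of_nonneg_left h2 (show 0 ≤ b * b by positivity),
        mul_le_mul_of_nonneg_right hab hb0.le]
    linarith

theorem sum_rademacherTerm {n : ℕ} (hn : 0 < n) (N : ℕ) :
    ∑ k ∈ range (N + 1), rademacherTerm n k =
      ((π * √2 : ℝ) : ℂ) * ∑ k ∈ Icc 1 N, rademacherSum k n * arcValue n k := by
  rw [mul_sum, range_eq_Ico, sum_eq_sum_Ico_succ_bot (Nat.succ_pos N), zero_add,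
    show rademacherTerm n 0 = 0 by simp [rademacherTerm], zero_add]
  refine sum_congr (by ext; simp) fun k hk => ?_
  rw [rademacherTerm, mul_right_comm, ← Complex.ofReal_mul, arcValue_eq hn (mem_Icc.1 hk).1]
  ring

theorem summable_norm_rademacherTerm {n : ℕ} (hn : 0 < n) :
    Summable fun k => ‖rademacherTerm n k‖ := by
  refine Summable.of_nonneg_of_le (fun k => norm_nonneg _) (fun k => ?_)
    ((Real.summable_one_div_nat_rpow.2 (show (1 : ℝ) < 3 / 2 by norm_num)).mul_left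
      (3 * Real.exp (π * √(2 * (n : ℝ) / 3))))
  rcases Nat.eq_zero_or_pos k with rfl | hk
  · rw [rademacherTerm]
    simp
  · have hk0 : (0 : ℝ) < k := Nat.cast_pos.2 hk
    refine (norm_rademacherTerm_le hn hk).trans (mul_le_mul (mul_le_mul_of_nonneg_left
      (Real.exp_le_exp.2 (div_le_self (by positivity) (Nat.one_le_cast.2 hk))) (by norm_num))
      (le_of_eq ?_) (by positivity) (by positivity))
    rw [Real.sqrt_eq_rpow, show (3 / 2 : ℝ) = 1 + 1 / 2 by norm_num, Real.rpow_add hk0, Real.rpow_one]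

/-- **Rademacher's formula.** -/
theorem hasSum_rademacherTerm {n : ℕ} (hn : 0 < n) :
    HasSum (rademacherTerm n) ((π * √2 * partCount n : ℝ) : ℂ) := by
  obtain ⟨C, hC⟩ := exists_partCount_sub_sum_le hn
  have hs := (summable_norm_rademacherTerm hn).of_norm
  have h1 := hs.hasSum.tendsto_sum_nat.comp (tendsto_add_atTop_nat 1)
  have h2 : Tendsto (fun N : ℕ => ∑ k ∈ range (N + 1), rademacherTerm n k) atTop
      (𝓝 ((π * √2 * partCount n : ℝ) : ℂ)) := by
    have hrate : Tendsto (fun N : ℕ => C / √(N : ℝ)) atTop (𝓝 0) :=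
      (Real.tendsto_sqrt_atTop.comp tendsto_natCast_atTop_atTop).const_div_atTop C
    have hconv : Tendsto (fun N : ℕ => ∑ k ∈ Icc 1 N, rademacherSum k n * arcValue n k) atTop
        (𝓝 (partCount n : ℂ)) := by
      refine tendsto_iff_norm_sub_tendsto_zero.2 (squeeze_zero' (Eventually.of_forall fun _ => norm_nonneg _)
        ((eventually_ge_atTop 4).mono fun N hN => ?_) hrate)
      rw [norm_sub_rev]
      exact hC N hN
    rw [Complex.ofReal_mul]
    exact (hconv.const_mul _).congr fun N => (sum_rademacherTerm hn N).symm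
  rw [← tendsto_nhds_unique h1 h2]
  exact hs.hasSum

/-- **The remainder.** -/
theorem norm_partCount_sub_partial_le {n N : ℕ} (hn : 0 < n) (hN : 0 < N) :
    ‖(partCount n : ℂ) - (∑ k ∈ Icc 1 N, rademacherTerm n k) / ((π * √2 : ℝ) : ℂ)‖ ≤
      2 * Real.exp (π * √(2 * (n : ℝ) / 3) / N) / √(N : ℝ) := by
  have hc : 0 < π * √2 := by positivity
  have hbound : ∀ᶠ M : ℕ in atTop, ‖(∑ k ∈ range (M + 1), rademacherTerm n k) -
      ∑ k ∈ Icc 1 N, rademacherTerm n k‖ ≤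
        6 * Real.exp (π * √(2 * (n : ℝ) / 3) / N) / √(N : ℝ) := by
    filter_upwards [eventually_ge_atTop N] with M hM
    have e : (∑ k ∈ range (M + 1), rademacherTerm n k) - ∑ k ∈ Icc 1 N, rademacherTerm n k =
        ∑ k ∈ Ioc N M, rademacherTerm n k := by
      have h0 : ∑ k ∈ range (M + 1), rademacherTerm n k = ∑ k ∈ Ioc 0 M, rademacherTerm n k := by
        rw [range_eq_Ico, sum_eq_sum_Ico_succ_bot (Nat.succ_pos M), zero_add,
          show rademacherTerm n 0 = 0 by simp [rademacherTerm], zero_add]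
        refine sum_congr (by ext k; simp; omega) fun _ _ => rfl
      rw [h0, ← sum_Ioc_consecutive _ (Nat.zero_le N) hM, show Icc 1 N = Ioc 0 N by ext k; simp; omega,
        add_sub_cancel_left]
    rw [e]
    refine (norm_sum_le _ _).trans ((sum_le_sum (g := fun k : ℕ =>
      3 * Real.exp (π * √(2 * (n : ℝ) / 3) / N) * (1 / ((k : ℝ) * √(k : ℝ)))) fun k hk => ?_).trans ?_)
    · rw [mem_Ioc] at hk
      refine (norm_rademacherTerm_le hn (by omega)).trans (mul_le_mul_of_nonneg_right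
        (mul_le_mul_of_nonneg_left (Real.exp_le_exp.2 (div_le_div_of_nonneg_left (by positivity)
          (Nat.cast_pos.2 hN) (Nat.cast_le.2 hk.1.le))) (by norm_num)) (by positivity))
    · rw [← mul_sum]
      refine (mul_le_mul_of_nonneg_left ((sum_Ioc_inv_mul_sqrt_le hN hM).trans
        (sub_le_self _ (by positivity))) (by positivity)).trans (le_of_eq ?_)
      ring
  have hlim := ((hasSum_rademacherTerm hn).tendsto_sum_nat.comp (tendsto_add_atTop_nat 1)).sub_const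
    (∑ k ∈ Icc 1 N, rademacherTerm n k)
  have h := le_of_tendsto hlim.norm hbound
  have hc' : ((π * √2 : ℝ) : ℂ) ≠ 0 := Complex.ofReal_ne_zero.2 hc.ne'
  rw [show (partCount n : ℂ) - (∑ k ∈ Icc 1 N, rademacherTerm n k) / ((π * √2 : ℝ) : ℂ) =
    (((π * √2 * partCount n : ℝ) : ℂ) - ∑ k ∈ Icc 1 N, rademacherTerm n k) / ((π * √2 : ℝ) : ℂ) by
      rw [sub_div, Complex.ofReal_mul (π * √2), mul_div_cancel_left₀ _ hc'],
    norm_div, Complex.norm_real, Real.norm_of_nonneg hc.le]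
  have h3 : 3 ≤ π * √2 := by
    have : 1 ≤ √(2 : ℝ) := Real.one_le_sqrt.2 (by norm_num)
    nlinarith [Real.pi_gt_three]
  refine (div_le_div₀ (by positivity) h three_pos h3).trans (le_of_eq ?_)
  ring

end FA.RademacherPartition
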