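import Fermat.Agent.RademacherPartition.Laplace
import Mathlib.Analysis.Complex.HasPrimitives
import Mathlib.MeasureTheory.Integral.IntegralEqImproper

/-!
# The main term on an arc

With `w = 1 / z` the integral of `√z exp (b / z + a z)` over an arc is that of the kernel along an
arc of a circle in `Re w > 0`; a primitive on a large disc in the half plane moves it to the line
`Re w = 1`, up to two vertical tails.
-/

set_option autoImplicit false

noncomputable section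

namespace FA.RademacherPartition

open Complex MeasureTheory Filter Set
open scoped Real Topology Interval

/-- `k (y - i φ)`. -/
def arcPoint (k y φ : ℝ) : ℂ := (k : ℂ) * ((y : ℂ) - (φ : ℂ) * I)

/-- `√z exp (b / z + a z)`. -/
def mainTerm (a b : ℝ) (z : ℂ) : ℂ := z ^ (2⁻¹ : ℂ) * cexp ((b : ℂ) / z + a * z)

theorem arcPoint_re (k y φ : ℝ) : (arcPoint k y φ).re = k * y := by simp [arcPoint]

theorem arcPoint_im (k y φ : ℝ) : (arcPoint k y φ).im = -(k * φ) := by simp [arcPoint]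

theorem arcPoint_ne_zero {k y : ℝ} (hk : 0 < k) (hy : 0 < y) (φ : ℝ) : arcPoint k y φ ≠ 0 :=
  fun h => by
    have := arcPoint_re k y φ
    rw [h, Complex.zero_re] at this
    exact (mul_pos hk hy).ne this

theorem inv_re_pos {z : ℂ} (hz : 0 < z.re) : 0 < (z⁻¹).re := by
  rw [Complex.inv_re]
  exact div_pos hz (Complex.normSq_pos.2 fun h => by simp [h] at hz)

theorem kern_inv {a b : ℝ} {z : ℂ} (hz : 0 < z.re) :
    kern a b z⁻¹ = z ^ 2 * mainTerm a b z := by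
  have hz0 : z ≠ 0 := fun h => by simp [h] at hz
  have hne : z ^ (2⁻¹ : ℂ) ≠ 0 := by
    rw [Complex.cpow_def_of_ne_zero hz0]
    exact Complex.exp_ne_zero _
  rw [kern, mainTerm, Complex.inv_cpow _ _ (fun h => by
    have := (Complex.arg_eq_pi_iff.1 h).1
    linarith), div_inv_eq_mul, div_eq_mul_inv (b : ℂ) z]
  field_simp

theorem continuous_mainTerm_arc (a b : ℝ) {k y : ℝ} (hk : 0 < k) (hy : 0 < y) :
    Continuous fun φ : ℝ => mainTerm a b (arcPoint k y φ) := by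
  refine continuous_iff_continuousAt.2 fun φ => ContinuousAt.comp (g := mainTerm a b)
    (f := fun φ : ℝ => arcPoint k y φ) ?_ (by unfold arcPoint; fun_prop)
  have h0 := arcPoint_ne_zero hk hy φ
  refine ContinuousAt.mul (ContinuousAt.cpow continuousAt_id continuousAt_const
    (Or.inl ((arcPoint_re k y φ).symm ▸ mul_pos hk hy : 0 < (arcPoint k y φ).re))) ?_
  exact ((continuousAt_const.div continuousAt_id h0).add (continuousAt_const.mul continuousAt_id)).cexp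

theorem mem_halfBall {R : ℝ} (hR : 0 < R) {w : ℂ} (h : ‖w‖ ^ 2 < 2 * R * w.re) :
    w ∈ Metric.ball (R : ℂ) R := by
  rw [Metric.mem_ball, dist_eq_norm]
  refine lt_of_pow_lt_pow_left₀ 2 hR.le ?_
  rw [Complex.sq_norm, Complex.normSq_apply] at h ⊢
  simp only [Complex.sub_re, Complex.sub_im, Complex.ofReal_re, Complex.ofReal_im, sub_zero]
  linarith

theorem halfBall_re_pos {R : ℝ} {w : ℂ} (h : w ∈ Metric.ball (R : ℂ) R) : 0 < w.re := by
  rw [Metric.mem_ball, dist_eq_norm] at h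
  have h1 := (Complex.abs_re_le_norm (w - R)).trans_lt h
  simp only [Complex.sub_re, Complex.ofReal_re, abs_lt] at h1
  linarith [h1.1]

theorem point_re (x t : ℝ) : ((x : ℂ) + (t : ℂ) * I).re = x := by simp

theorem norm_kern_point_le {a b U x t : ℝ} (ha : 0 ≤ a) (hx : 0 < x) (ht : 1 ≤ |t|) (hU : b * x ≤ U) :
    ‖kern a b ((x : ℂ) + (t : ℂ) * I)‖ ≤ Real.exp (U + a) / (√|t| * t ^ 2) := by
  have hn : t ^ 2 + x ^ 2 = ‖(x : ℂ) + (t : ℂ) * I‖ ^ 2 := by
    rw [Complex.sq_norm, Complex.normSq_apply]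
    simp
    ring
  have habs : |t| ≤ ‖(x : ℂ) + (t : ℂ) * I‖ :=
    le_of_pow_le_pow_left₀ two_ne_zero (norm_nonneg _) (by
      rw [sq_abs, ← hn]
      nlinarith)
  have hne : (x : ℂ) + (t : ℂ) * I ≠ 0 := fun h => by
    have := point_re x t
    rw [h] at this
    simp at this
    linarith
  have hinv : (((x : ℂ) + (t : ℂ) * I)⁻¹).re ≤ 1 := by
    rw [Complex.inv_re, point_re, div_le_one (Complex.normSq_pos.2 hne), ← Complex.sq_norm, ← hn]
    have : 1 ≤ t ^ 2 := by nlinarith [sq_abs t]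
    nlinarith [sq_nonneg (x - 1)]
  refine (norm_kern_le (M := U + a) (by rw [point_re]; nlinarith)).trans ?_
  refine div_le_div_of_nonneg_left (Real.exp_pos _).le ?_ ?_
  · have : 0 < |t| := by linarith
    rw [← sq_abs t]
    positivity
  · rw [← sq_abs t]
    exact mul_le_mul (Real.sqrt_le_sqrt habs) (pow_le_pow_left₀ (abs_nonneg t) habs 2) (by positivity)
      (Real.sqrt_nonneg _)

theorem continuous_kern_vertical (a b : ℝ) {x : ℝ} (hx : 0 < x) :
    Continuous fun t : ℝ => kern a b ((x : ℂ) + (t : ℂ) * I) :=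
  continuous_iff_continuousAt.2 fun t => ContinuousAt.comp (g := kern a b)
    (f := fun t : ℝ => (x : ℂ) + (t : ℂ) * I) (continuousAt_kern a b (by rw [point_re]; exact hx))
    (by fun_prop)

/-- An upper tail. -/
theorem norm_integral_tail_le {a b U x v T : ℝ} (ha : 0 ≤ a) (hx : 0 < x) (hv : 1 ≤ v) (hvT : v ≤ T)
    (hU : b * x ≤ U) (σ : ℝ) (hσ : |σ| = 1) :
    ‖∫ t in v..T, kern a b ((x : ℂ) + ((σ * t : ℝ) : ℂ) * I)‖ ≤ Real.exp (U + a) / (v * √v) := by
  obtain ⟨E, hE⟩ : ∃ E, E = Real.exp (U + a) / √v := ⟨_, rfl⟩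
  have hE0 : 0 ≤ E := hE ▸ by positivity
  have hd : ∀ t ∈ uIcc v T, HasDerivAt (fun t : ℝ => -(E * t⁻¹)) (E * (t ^ 2)⁻¹) t := fun t ht => by
    rw [uIcc_of_le hvT] at ht
    exact (((hasDerivAt_inv (show t ≠ 0 by linarith [ht.1])).const_mul E).neg).congr_deriv (by ring)
  have hint : IntervalIntegrable (fun t : ℝ => E * (t ^ 2)⁻¹) volume v T := by
    refine (ContinuousOn.mul continuousOn_const
      ((continuousOn_pow 2).inv₀ fun t ht => ?_)).intervalIntegrable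
    rw [uIcc_of_le hvT] at ht
    have : 0 < t := by linarith [ht.1]
    positivity
  refine (intervalIntegral.norm_integral_le_of_norm_le (g := fun t : ℝ => E * (t ^ 2)⁻¹) hvT
    (Eventually.of_forall fun t ht => ?_) hint).trans ?_
  · have ht0 : 0 < t := by linarith [ht.1]
    have habs : |σ * t| = t := by rw [abs_mul, hσ, one_mul, abs_of_pos ht0]
    refine (norm_kern_point_le ha hx (by rw [habs]; linarith [ht.1]) hU).trans ?_
    rw [habs, ← sq_abs (σ * t), habs, hE, ← div_eq_mul_inv, div_div]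
    exact div_le_div_of_nonneg_left (Real.exp_pos _).le
      (mul_pos (Real.sqrt_pos.2 (by linarith)) (by positivity))
      (mul_le_mul_of_nonneg_right (Real.sqrt_le_sqrt ht.1.le) (by positivity))
  · rw [intervalIntegral.integral_eq_sub_of_hasDerivAt hd hint, hE]
    have h1 : 0 ≤ Real.exp (U + a) / √v * T⁻¹ :=
      mul_nonneg (by positivity) (inv_nonneg.2 (by linarith))
    have h2 : Real.exp (U + a) / √v * v⁻¹ = Real.exp (U + a) / (v * √v) := by
      rw [← div_eq_mul_inv, div_div, mul_comm √v]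
    linarith

/-- **The main term of an arc.** -/
theorem norm_arc_sub_line_le {a b k y U v φ₁ φ₂ : ℝ} (ha : 0 ≤ a) (hb : 0 ≤ b) (hk : 0 < k)
    (hy : 0 < y) (hv : 1 ≤ v)
    (hU₁ : b * ((arcPoint k y φ₁)⁻¹).re ≤ U) (hU₂ : b * ((arcPoint k y φ₂)⁻¹).re ≤ U)
    (hv₁ : v ≤ -((arcPoint k y φ₁)⁻¹).im) (hv₂ : v ≤ ((arcPoint k y φ₂)⁻¹).im) :
    ‖(∫ φ in φ₁..φ₂, mainTerm a b (arcPoint k y φ)) -
        (∫ t : ℝ, kern a b (1 + (t : ℂ) * I)) / k‖ ≤ 2 * Real.exp (U + a) / (v * √v) / k := by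
  obtain ⟨u₁, hu₁⟩ : ∃ u, u = ((arcPoint k y φ₁)⁻¹).re := ⟨_, rfl⟩
  obtain ⟨u₂, hu₂⟩ : ∃ u, u = ((arcPoint k y φ₂)⁻¹).re := ⟨_, rfl⟩
  obtain ⟨v₁, hv₁d⟩ : ∃ u, u = ((arcPoint k y φ₁)⁻¹).im := ⟨_, rfl⟩
  obtain ⟨v₂, hv₂d⟩ : ∃ u, u = ((arcPoint k y φ₂)⁻¹).im := ⟨_, rfl⟩
  rw [← hu₁] at hU₁
  rw [← hu₂] at hU₂
  rw [← hv₁d] at hv₁
  rw [← hv₂d] at hv₂
  have hzre : ∀ φ, 0 < (arcPoint k y φ).re := fun φ => by rw [arcPoint_re]; exact mul_pos hk hy
  have hu₁0 : 0 < u₁ := hu₁ ▸ inv_re_pos (hzre _)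
  have hu₂0 : 0 < u₂ := hu₂ ▸ inv_re_pos (hzre _)
  obtain ⟨X, hX⟩ : ∃ X, X = 1 + u₁ + u₂ := ⟨_, rfl⟩
  obtain ⟨x₀, hx₀⟩ : ∃ x₀, x₀ = min 1 (min u₁ u₂) := ⟨_, rfl⟩
  have hx₀0 : 0 < x₀ := hx₀ ▸ lt_min one_pos (lt_min hu₁0 hu₂0)
  obtain ⟨M, hM⟩ : ∃ M, M = ∫ φ in φ₁..φ₂, mainTerm a b (arcPoint k y φ) := ⟨_, rfl⟩
  obtain ⟨line, hline⟩ : ∃ line : ℝ → ℂ, line = fun T => ∫ t in (-T)..T, kern a b (1 + (t : ℂ) * I) :=
    ⟨_, rfl⟩
  have hbound : ∀ T : ℝ, max (max v₂ (-v₁)) 1 ≤ T →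
      ‖(k : ℂ) * M - line T‖ ≤ 2 * (Real.exp (U + a) / (v * √v)) +
        2 * (Real.exp (b * X + a) * X / T ^ 2) := by
    intro T hT
    have hT1 : 1 ≤ T := le_trans (le_max_right _ _) hT
    have hT₂ : v₂ ≤ T := le_trans ((le_max_left _ _).trans (le_max_left _ _)) hT
    have hT₁ : -v₁ ≤ T := le_trans ((le_max_right _ _).trans (le_max_left _ _)) hT
    obtain ⟨R, hR⟩ : ∃ R, R = (X ^ 2 + T ^ 2) / x₀ + 1 / (k * y) + 1 := ⟨_, rfl⟩
    have hR0 : 0 < R := hR ▸ by positivity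
    have hmem : ∀ x t : ℝ, x₀ ≤ x → x ≤ X → |t| ≤ T →
        (x : ℂ) + (t : ℂ) * I ∈ Metric.ball (R : ℂ) R := fun x t hx hxX ht => by
      refine mem_halfBall hR0 ?_
      rw [Complex.sq_norm, Complex.normSq_apply, point_re]
      simp
      have h1 : (X ^ 2 + T ^ 2) / x₀ * x₀ = X ^ 2 + T ^ 2 := div_mul_cancel₀ _ hx₀0.ne'
      have h2 : (X ^ 2 + T ^ 2) / x₀ + 1 ≤ R := by
        have : 0 < 1 / (k * y) := by positivity
        linarith
      have h3 := mul_le_mul h2 hx hx₀0.le hR0.le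
      nlinarith [sq_abs t, abs_nonneg t, pow_le_pow_left₀ (abs_nonneg t) ht 2,
        pow_le_pow_left₀ (hx₀0.le.trans hx) hxX 2]
    have hmem' : ∀ φ, (arcPoint k y φ)⁻¹ ∈ Metric.ball (R : ℂ) R := fun φ => by
      refine mem_halfBall hR0 ?_
      have hnz := Complex.normSq_pos.2 (arcPoint_ne_zero hk hy φ)
      rw [norm_inv, inv_pow, Complex.sq_norm, Complex.inv_re, arcPoint_re, ← mul_div_assoc,
        inv_eq_one_div, div_lt_div_iff_of_pos_right hnz]
      have h1 : 1 / (k * y) * (k * y) = 1 := div_mul_cancel₀ _ (mul_pos hk hy).ne'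
      have h2 : 1 / (k * y) < R := by
        have : 0 ≤ (X ^ 2 + T ^ 2) / x₀ := by positivity
        linarith
      have := mul_lt_mul_of_pos_right h2 (mul_pos hk hy)
      nlinarith
    obtain ⟨F, hF⟩ := (DifferentiableOn.isExactOn_ball (f := kern a b) (c := (R : ℂ)) (r := R)
      fun w hw => by
        have hw0 : w ≠ 0 := fun h => by have := halfBall_re_pos hw; simp [h] at this
        refine DifferentiableAt.differentiableWithinAt ?_
        unfold kern
        refine DifferentiableAt.div (by fun_prop (disch := assumption))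
          ((DifferentiableAt.cpow differentiableAt_id (differentiableAt_const _)
            (Or.inl (halfBall_re_pos hw))).mul (differentiableAt_id.pow 2)) (mul_ne_zero ?_ (pow_ne_zero 2 hw0))
        rw [Complex.cpow_def_of_ne_zero hw0]
        exact Complex.exp_ne_zero _)
    have hvert : ∀ x, x₀ ≤ x → x ≤ X → ∀ s t : ℝ, |s| ≤ T → |t| ≤ T →
        F ((x : ℂ) + (t : ℂ) * I) - F ((x : ℂ) + (s : ℂ) * I) =
          I * ∫ r in s..t, kern a b ((x : ℂ) + (r : ℂ) * I) := by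
      intro x hx hxX s t hs ht
      rw [← intervalIntegral.integral_const_mul]
      refine (intervalIntegral.integral_eq_sub_of_hasDerivAt (f := fun r : ℝ => F ((x : ℂ) + (r : ℂ) * I))
        (fun r hr => ?_) ((continuous_const.mul
          (continuous_kern_vertical a b (hx₀0.trans_le hx))).intervalIntegrable _ _)).symm
      have hr' : |r| ≤ T := abs_le.2
        ⟨(le_min (abs_le.1 hs).1 (abs_le.1 ht).1).trans hr.1,
          hr.2.trans (max_le (abs_le.1 hs).2 (abs_le.1 ht).2)⟩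
      exact ((hF _ (hmem x r hx hxX hr')).comp_of_eq (r : ℂ)
        ((((hasDerivAt_id (r : ℂ)).mul_const I).const_add (x : ℂ))) rfl).comp_ofReal.congr_deriv
          (by simp [mul_comm])
    have hhor : ∀ x, x₀ ≤ x → x ≤ X → ∀ σ : ℝ, |σ| = T →
        ‖F ((x : ℂ) + (σ : ℂ) * I) - F ((1 : ℝ) + (σ : ℂ) * I)‖ ≤ Real.exp (b * X + a) * X / T ^ 2 := by
      intro x hx hxX σ hσ
      have h1 : x₀ ≤ 1 := hx₀ ▸ min_le_left _ _
      have h2 : (1 : ℝ) ≤ X := by linarith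
      have hin : ∀ r ∈ [[(1 : ℝ), x]], x₀ ≤ r ∧ r ≤ X := fun r hr =>
        ⟨(le_min h1 hx).trans hr.1, hr.2.trans (max_le h2 hxX)⟩
      have hd : ∀ r ∈ [[(1 : ℝ), x]], HasDerivAt (fun r : ℝ => F ((r : ℂ) + (σ : ℂ) * I))
          (kern a b ((r : ℂ) + (σ : ℂ) * I)) r := fun r hr =>
        ((hF _ (hmem r σ (hin r hr).1 (hin r hr).2 hσ.le)).comp_of_eq (r : ℂ)
          ((hasDerivAt_id (r : ℂ)).add_const ((σ : ℂ) * I)) rfl).comp_ofReal.congr_deriv (by simp)
      rw [← intervalIntegral.integral_eq_sub_of_hasDerivAt hd (ContinuousOn.intervalIntegrable fun r hr =>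
        (ContinuousAt.comp (g := kern a b) (f := fun r : ℝ => (r : ℂ) + (σ : ℂ) * I)
          (continuousAt_kern a b (by rw [point_re]; linarith [(hin r hr).1]))
          (by fun_prop)).continuousWithinAt)]
      refine (intervalIntegral.norm_integral_le_of_norm_le_const
        (C := Real.exp (b * X + a) / T ^ 2) fun r hr => ?_).trans ?_
      · obtain ⟨hr1, hr2⟩ := hin r (uIoc_subset_uIcc hr)
        refine (norm_kern_point_le (U := b * X) ha (hx₀0.trans_le hr1) (by rw [hσ]; exact hT1)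
          (mul_le_mul_of_nonneg_left hr2 hb)).trans ?_
        rw [hσ, ← sq_abs σ, hσ]
        exact div_le_div_of_nonneg_left (Real.exp_pos _).le (by positivity)
          (le_mul_of_one_le_left (by positivity) (Real.one_le_sqrt.2 hT1))
      · rw [div_mul_eq_mul_div]
        refine div_le_div_of_nonneg_right (mul_le_mul_of_nonneg_left (abs_le.2 ⟨?_, ?_⟩)
          (Real.exp_pos _).le) (by positivity) <;> linarith [hx₀0.trans_le hx]
    have hx1 : x₀ ≤ u₁ ∧ u₁ ≤ X ∧ x₀ ≤ u₂ ∧ u₂ ≤ X ∧ x₀ ≤ 1 ∧ 1 ≤ X := by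
      refine ⟨hx₀ ▸ (min_le_right _ _).trans (min_le_left _ _), by linarith,
        hx₀ ▸ (min_le_right _ _).trans (min_le_right _ _), by linarith, hx₀ ▸ min_le_left _ _, by linarith⟩
    have hTT : |T| = T := abs_of_nonneg (by linarith)
    have hTn : |(-T)| = T := by rw [abs_neg, hTT]
    have hw₁ : (arcPoint k y φ₁)⁻¹ = (u₁ : ℂ) + (v₁ : ℂ) * I := by
      rw [hu₁, hv₁d, Complex.re_add_im]
    have hw₂ : (arcPoint k y φ₂)⁻¹ = (u₂ : ℂ) + (v₂ : ℂ) * I := by
      rw [hu₂, hv₂d, Complex.re_add_im]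
    have harc : F ((arcPoint k y φ₂)⁻¹) - F ((arcPoint k y φ₁)⁻¹) = (k : ℂ) * I * M := by
      rw [hM, ← intervalIntegral.integral_const_mul]
      refine (intervalIntegral.integral_eq_sub_of_hasDerivAt (f := fun φ : ℝ => F (arcPoint k y φ)⁻¹)
        (fun φ _ => ?_) ((continuous_const.mul
          (continuous_mainTerm_arc a b hk hy)).intervalIntegrable _ _)).symm
      have hz0 := arcPoint_ne_zero hk hy φ
      have hd : HasDerivAt (fun φ : ℂ => ((k : ℂ) * ((y : ℂ) - φ * I))⁻¹)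
          ((k : ℂ) * I / arcPoint k y φ ^ 2) (φ : ℂ) := by
        refine (((((hasDerivAt_id (φ : ℂ)).mul_const I).const_sub (y : ℂ)).const_mul (k : ℂ)).inv
          hz0).congr_deriv ?_
        simp [arcPoint]
      refine ((hF _ (hmem' φ)).comp_of_eq (φ : ℂ) hd rfl).comp_ofReal.congr_deriv ?_
      rw [kern_inv (hzre φ)]
      simp only [Pi.mul_apply]
      field_simp
    have ht₂ := norm_integral_tail_le (v := v₂) (T := T) ha hu₂0 (hv.trans hv₂) hT₂ hU₂ 1 abs_one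
    have ht₁ := norm_integral_tail_le (v := -v₁) (T := T) ha hu₁0 (hv.trans hv₁) hT₁ hU₁ (-1)
      (by simp)
    simp only [one_mul] at ht₂
    rw [intervalIntegral.integral_congr (g := fun t : ℝ => kern a b ((u₁ : ℂ) + ((-t : ℝ) : ℂ) * I))
      (fun t _ => by simp), intervalIntegral.integral_comp_neg
      (fun t : ℝ => kern a b ((u₁ : ℂ) + (t : ℂ) * I)), neg_neg] at ht₁
    have hmono : ∀ w, v ≤ w → Real.exp (U + a) / (w * √w) ≤ Real.exp (U + a) / (v * √v) := fun w hw =>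
      div_le_div_of_nonneg_left (Real.exp_pos _).le (by positivity)
        (mul_le_mul hw (Real.sqrt_le_sqrt hw) (Real.sqrt_nonneg _) (by linarith))
    have hvv₂ : |v₂| ≤ T := abs_le.2 ⟨by linarith, hT₂⟩
    have hvv₁ : |v₁| ≤ T := abs_le.2 ⟨by linarith, by linarith⟩
    have e1 := hvert 1 hx1.2.2.2.2.1 hx1.2.2.2.2.2 (-T) T hTn.le hTT.le
    have e2 := hvert u₂ hx1.2.2.1 hx1.2.2.2.1 v₂ T hvv₂ hTT.le
    have e3 := hvert u₁ hx1.1 hx1.2.1 (-T) v₁ hTn.le hvv₁
    obtain ⟨A, hA⟩ : ∃ A, A = F ((u₂ : ℂ) + (T : ℂ) * I) - F (((1 : ℝ) : ℂ) + (T : ℂ) * I) := ⟨_, rfl⟩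
    obtain ⟨B, hB⟩ : ∃ B, B = F ((u₁ : ℂ) + ((-T : ℝ) : ℂ) * I) -
        F (((1 : ℝ) : ℂ) + ((-T : ℝ) : ℂ) * I) := ⟨_, rfl⟩
    have hl : line T = ∫ r in (-T)..T, kern a b (((1 : ℝ) : ℂ) + (r : ℂ) * I) := by
      rw [hline]
      simp
    have key : I * ((k : ℂ) * M - line T) =
        A - B - I * (∫ r in v₂..T, kern a b ((u₂ : ℂ) + (r : ℂ) * I)) -
          I * ∫ r in (-T)..v₁, kern a b ((u₁ : ℂ) + (r : ℂ) * I) := by
      rw [mul_sub, hl, ← e1, show I * ((k : ℂ) * M) = (k : ℂ) * I * M by ring, ← harc, ← e2, ← e3, hA, hB,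
        hw₁, hw₂]
      ring
    have hnorm := congrArg norm key
    rw [norm_mul, Complex.norm_I, one_mul] at hnorm
    rw [hnorm]
    refine (norm_sub_le _ _).trans ((add_le_add ((norm_sub_le _ _).trans
      (add_le_add (norm_sub_le _ _) le_rfl)) le_rfl).trans ?_)
    rw [norm_mul, norm_mul, Complex.norm_I, one_mul, one_mul, hA, hB]
    linarith [hhor u₂ hx1.2.2.1 hx1.2.2.2.1 T hTT, hhor u₁ hx1.1 hx1.2.1 (-T) hTn,
      hmono v₂ hv₂, hmono (-v₁) hv₁]
  have hlim1 : Tendsto line atTop (𝓝 (∫ t : ℝ, kern a b (1 + (t : ℂ) * I))) :=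
    hline ▸ intervalIntegral_tendsto_integral (integrable_kern_line ha b) tendsto_neg_atTop_atBot tendsto_id
  have hlim2 : Tendsto (fun T : ℝ => 2 * (Real.exp (U + a) / (v * √v)) +
      2 * (Real.exp (b * X + a) * X / T ^ 2)) atTop (𝓝 (2 * (Real.exp (U + a) / (v * √v)))) := by
    simpa using ((tendsto_pow_atTop (α := ℝ) two_ne_zero).const_div_atTop
      (Real.exp (b * X + a) * X)).const_mul 2 |>.const_add (2 * (Real.exp (U + a) / (v * √v)))
  have hfin := le_of_tendsto_of_tendsto ((tendsto_const_nhds.sub hlim1).norm) hlim2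
    ((eventually_ge_atTop (max (max v₂ (-v₁)) 1)).mono hbound)
  have hk0 : (k : ℂ) ≠ 0 := Complex.ofReal_ne_zero.2 hk.ne'
  rw [← hM]
  calc ‖M - (∫ t : ℝ, kern a b (1 + (t : ℂ) * I)) / k‖
      = ‖(k : ℂ) * M - ∫ t : ℝ, kern a b (1 + (t : ℂ) * I)‖ / k := by
        rw [show M - (∫ t : ℝ, kern a b (1 + (t : ℂ) * I)) / k =
            ((k : ℂ) * M - ∫ t : ℝ, kern a b (1 + (t : ℂ) * I)) / k by
              rw [sub_div, mul_div_cancel_left₀ _ hk0],
          norm_div, Complex.norm_real, Real.norm_of_nonneg hk.le]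
    _ ≤ 2 * (Real.exp (U + a) / (v * √v)) / k := div_le_div_of_nonneg_right hfin hk.le
    _ = 2 * Real.exp (U + a) / (v * √v) / k := by ring

end FA.RademacherPartition
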