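import Mathlib.Analysis.Fourier.Inversion
import Mathlib.Analysis.SpecialFunctions.Gaussian.GaussianIntegral
import Mathlib.Analysis.SpecialFunctions.Gamma.Basic
import Mathlib.Analysis.SpecialFunctions.Trigonometric.DerivHyp
import Mathlib.Analysis.SpecialFunctions.Trigonometric.Series
import Mathlib.Analysis.SpecialFunctions.ImproperIntegrals

/-!
# The integral of Bessel type on a vertical line

`∫ exp (b w + a / w) w ^ (-5/2) dt` on `w = 1 + i t` is `2π f(b)`,
`f x = (u cosh u - sinh u) / (2 √π a ^ (3/2))`, `u = 2 √(a x)`: the Laplace transform of `f` is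
`s ^ (-5/2) exp (a / s)`, term by term from the Gaussian integral, and Fourier inversion gives the rest.
-/

set_option autoImplicit false

noncomputable section

namespace FA.RademacherPartition

open Complex MeasureTheory Set Filter
open scoped Real Topology FourierTransform Nat

/-- `exp (b w + a / w) w ^ (-5/2)`. -/
def kern (a b : ℝ) (w : ℂ) : ℂ := cexp (b * w + a / w) / (w ^ (2⁻¹ : ℂ) * w ^ 2)

/-- `(u cosh u - sinh u) / (2 √π a ^ (3/2))`, `u = 2 √(a x)`. -/
def besselFun (a x : ℝ) : ℝ :=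
  (2 * √(a * x) * Real.cosh (2 * √(a * x)) - Real.sinh (2 * √(a * x))) / (2 * √π * √a ^ 3)

theorem norm_cpow_half (w : ℂ) : ‖w ^ (2⁻¹ : ℂ)‖ = √‖w‖ := by
  rw [show (2⁻¹ : ℂ) = ((2⁻¹ : ℝ) : ℂ) by push_cast; rfl, Complex.norm_cpow_real,
    Real.sqrt_eq_rpow, one_div]

theorem norm_kern_le {a b M : ℝ} {w : ℂ} (hM : b * w.re + a * (w⁻¹).re ≤ M) :
    ‖kern a b w‖ ≤ Real.exp M / (√‖w‖ * ‖w‖ ^ 2) := by
  rw [kern, norm_div, norm_mul, norm_cpow_half, norm_pow, Complex.norm_exp]
  refine div_le_div_of_nonneg_right (Real.exp_le_exp.2 (le_of_eq_of_le ?_ hM)) (by positivity)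
  rw [div_eq_mul_inv, Complex.add_re, Complex.re_ofReal_mul, Complex.re_ofReal_mul]

theorem continuousAt_kern (a b : ℝ) {w : ℂ} (hw : 0 < w.re) : ContinuousAt (kern a b) w := by
  have hw0 : w ≠ 0 := fun h => by simp [h] at hw
  refine ContinuousAt.div ?_ ?_ (mul_ne_zero ?_ (pow_ne_zero 2 hw0))
  · exact ((continuousAt_const.mul continuousAt_id).add (continuousAt_const.div continuousAt_id hw0)).cexp
  · exact (ContinuousAt.cpow continuousAt_id continuousAt_const (Or.inl hw)).mul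
      (continuousAt_id.pow 2)
  · rw [Complex.cpow_def_of_ne_zero hw0]
    exact Complex.exp_ne_zero _

/-- `(2j)! / (4 ^ j j!)`. -/
def halfCoeff (j : ℕ) : ℝ := ((2 * j)! : ℝ) / (4 ^ j * (j ! : ℝ))

theorem halfCoeff_succ (j : ℕ) : halfCoeff (j + 1) = ((j : ℝ) + 1 / 2) * halfCoeff j := by
  rw [halfCoeff, halfCoeff, show 2 * (j + 1) = 2 * j + 1 + 1 by ring, Nat.factorial_succ,
    Nat.factorial_succ, Nat.factorial_succ]
  push_cast
  field_simp
  ring

theorem integrableOn_halfPow (j : ℕ) {σ : ℝ} (hσ : 0 < σ) :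
    IntegrableOn (fun x : ℝ => x ^ j / √x * Real.exp (-σ * x)) (Ioi 0) := by
  refine (integrableOn_rpow_mul_exp_neg_mul_rpow (s := (j : ℝ) - 1 / 2) (p := 1) (b := σ)
    (by linarith [Nat.cast_nonneg (α := ℝ) j]) one_pos hσ).congr_fun (fun x (hx : 0 < x) => ?_)
    measurableSet_Ioi
  dsimp only
  rw [Real.rpow_sub hx, Real.rpow_natCast, Real.rpow_one, Real.sqrt_eq_rpow]

theorem norm_halfPow_cexp (j : ℕ) (s : ℂ) {x : ℝ} (hx : 0 < x) :
    ‖((x ^ j / √x : ℝ) : ℂ) * cexp (-s * x)‖ = x ^ j / √x * Real.exp (-s.re * x) := by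
  rw [norm_mul, Complex.norm_real, Real.norm_of_nonneg (by positivity), Complex.norm_exp]
  simp

theorem integrableOn_halfPow_cexp (j : ℕ) {s : ℂ} (hs : 0 < s.re) :
    IntegrableOn (fun x : ℝ => ((x ^ j / √x : ℝ) : ℂ) * cexp (-s * x)) (Ioi 0) := by
  refine (integrableOn_halfPow j hs).mono' ?_ ?_
  · refine ContinuousOn.aestronglyMeasurable (ContinuousOn.mul ?_ (by fun_prop)) measurableSet_Ioi
    exact Complex.continuous_ofReal.comp_continuousOn
      ((continuousOn_pow j).div Real.continuous_sqrt.continuousOn fun x hx =>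
        (Real.sqrt_pos.2 hx).ne')
  · filter_upwards [ae_restrict_mem measurableSet_Ioi] with x hx
    exact (norm_halfPow_cexp j s hx).le

theorem integral_halfPow_zero {s : ℂ} (hs : 0 < s.re) :
    ∫ x in Ioi (0 : ℝ), ((x ^ 0 / √x : ℝ) : ℂ) * cexp (-s * x) = (√π : ℂ) / s ^ (2⁻¹ : ℂ) := by
  rw [← integral_comp_rpow_Ioi_of_pos (g := fun x : ℝ => ((x ^ 0 / √x : ℝ) : ℂ) * cexp (-s * x))
    two_pos, setIntegral_congr_fun measurableSet_Ioi
      (g := fun x : ℝ => 2 * cexp (-s * (x : ℂ) ^ 2)) fun x (hx : 0 < x) => ?_]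
  · have hs0 : s ≠ 0 := fun h => by simp [h] at hs
    have hπ : (π : ℂ) ≠ 0 := Complex.ofReal_ne_zero.2 Real.pi_ne_zero
    rw [integral_const_mul, integral_gaussian_complex_Ioi hs, show (1 / 2 : ℂ) = 2⁻¹ by ring,
      div_eq_mul_inv (π : ℂ), Complex.cpow_def_of_ne_zero (mul_ne_zero hπ (inv_ne_zero hs0)),
      Complex.log_ofReal_mul Real.pi_pos (inv_ne_zero hs0), Complex.log_inv _ (fun h => by
        have := (Complex.arg_eq_pi_iff.1 h).1
        linarith), Complex.cpow_def_of_ne_zero hs0, add_mul, Complex.exp_add, neg_mul,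
      Complex.exp_neg, Real.sqrt_eq_rpow, Complex.ofReal_cpow Real.pi_pos.le,
      Complex.cpow_def_of_ne_zero hπ, Complex.ofReal_log Real.pi_pos.le]
    push_cast
    ring_nf
  · dsimp only
    rw [Real.rpow_two, Real.sqrt_sq hx.le, show (2 : ℝ) - 1 = 1 by norm_num, Real.rpow_one,
      Complex.real_smul, ← mul_assoc, ← Complex.ofReal_mul]
    congr 1
    · rw [pow_zero, mul_assoc, mul_one_div, div_self hx.ne']
      simp
    · push_cast
      ring_nf

theorem integral_halfPow (j : ℕ) {s : ℂ} (hs : 0 < s.re) :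
    ∫ x in Ioi (0 : ℝ), ((x ^ j / √x : ℝ) : ℂ) * cexp (-s * x) =
      (√π : ℂ) * halfCoeff j / (s ^ (2⁻¹ : ℂ) * s ^ j) := by
  have hs0 : s ≠ 0 := fun h => by simp [h] at hs
  induction j with
  | zero => simpa [halfCoeff] using integral_halfPow_zero hs
  | succ j ih =>
    obtain ⟨F, hF⟩ : ∃ F : ℝ → ℂ, F = fun x : ℝ => ((x ^ j * √x : ℝ) : ℂ) * cexp (-s * x) := ⟨_, rfl⟩
    obtain ⟨A, hA⟩ : ∃ A : ℕ → ℝ → ℂ, A = fun i (x : ℝ) => ((x ^ i / √x : ℝ) : ℂ) * cexp (-s * x) :=
      ⟨_, rfl⟩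
    have hd : ∀ x ∈ Ioi (0 : ℝ),
        HasDerivAt F (((j : ℂ) + 1 / 2) * A j x + (-s) * A (j + 1) x) x := fun x (hx : 0 < x) => by
      have h1 : HasDerivAt (fun y : ℝ => y ^ j * √y) (((j : ℝ) + 1 / 2) * (x ^ j / √x)) x := by
        refine ((hasDerivAt_pow j x).mul (Real.hasDerivAt_sqrt hx.ne')).congr_deriv ?_
        have hsq : √x ≠ 0 := (Real.sqrt_pos.2 hx).ne'
        rcases Nat.eq_zero_or_pos j with rfl | hj
        · simp
          ring
        · rw [show x ^ j = x * x ^ (j - 1) by rw [← pow_succ', Nat.sub_add_cancel hj]]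
          field_simp
          rw [Real.sq_sqrt hx.le]
          ring
      have h2 : HasDerivAt (fun y : ℝ => cexp (-s * y)) (cexp (-s * x) * (-s)) x :=
        (((hasDerivAt_id (x : ℂ)).const_mul (-s)).congr_deriv (mul_one _)).cexp.comp_ofReal
      rw [hF, hA]
      refine (h1.ofReal_comp.mul h2).congr_deriv ?_
      have e : x ^ (j + 1) / √x = x ^ j * √x := by
        rw [div_eq_iff (Real.sqrt_pos.2 hx).ne', mul_assoc, Real.mul_self_sqrt hx.le, pow_succ]
      dsimp only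
      rw [e]
      push_cast
      ring
    have hint : ∀ i, IntegrableOn (A i) (Ioi 0) := fun i => hA ▸ integrableOn_halfPow_cexp i hs
    have hlim : Tendsto F atTop (𝓝 0) := by
      rw [hF, tendsto_zero_iff_norm_tendsto_zero]
      refine (tendsto_rpow_mul_exp_neg_mul_atTop_nhds_zero ((j : ℝ) + 1 / 2) s.re hs).congr' ?_
      filter_upwards [eventually_gt_atTop 0] with x hx
      rw [norm_mul, Complex.norm_real, Real.norm_of_nonneg (by positivity), Complex.norm_exp,
        Real.rpow_add hx, Real.rpow_natCast, Real.sqrt_eq_rpow]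
      simp
    have hzero : F 0 = 0 := by simp [hF]
    have h := integral_Ioi_of_hasDerivAt_of_tendsto (f := F) (a := 0) (m := 0)
      (by rw [hF]; fun_prop) hd
      (((hint j).const_mul _).add ((hint (j + 1)).const_mul _)) hlim
    rw [hzero, sub_zero, integral_add ((hint j).const_mul _) ((hint (j + 1)).const_mul _),
      integral_const_mul, integral_const_mul] at h
    simp only [hA] at h
    rw [ih] at h
    rw [halfCoeff_succ]
    have hne : s ^ (2⁻¹ : ℂ) ≠ 0 := by
      rw [Complex.cpow_def_of_ne_zero hs0]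
      exact Complex.exp_ne_zero _
    refine mul_left_cancel₀ hs0 ?_
    rw [show s * ∫ x in Ioi (0 : ℝ), ((x ^ (j + 1) / √x : ℝ) : ℂ) * cexp (-s * x) =
      ((j : ℂ) + 1 / 2) * ((√π : ℂ) * halfCoeff j / (s ^ (2⁻¹ : ℂ) * s ^ j)) by linear_combination -h]
    push_cast
    field_simp
    ring

theorem hasSum_cosh_sub_sinh (u : ℝ) :
    HasSum (fun m : ℕ => 2 * ((m : ℝ) + 1) * u ^ (2 * m + 3) / ((2 * m + 3)! : ℝ))
      (u * Real.cosh u - Real.sinh u) := by
  have h := ((Real.hasSum_cosh u).mul_left u).sub (Real.hasSum_sinh u)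
  rw [← hasSum_nat_add_iff' 1] at h
  simp only [Finset.sum_range_one] at h
  norm_num at h
  refine h.congr_fun fun m => ?_
  rw [show 2 * (m + 1) + 1 = 2 * m + 3 by ring, show 2 * m + 3 = 2 * (m + 1) + 1 by ring,
    Nat.factorial_succ, pow_succ]
  push_cast
  field_simp
  ring

theorem cosh_sub_sinh_nonneg {u : ℝ} (hu : 0 ≤ u) : 0 ≤ u * Real.cosh u - Real.sinh u :=
  (hasSum_cosh_sub_sinh u).nonneg fun m => by positivity

/-- The coefficient of `x ^ (m + 3/2)` in `besselFun`. -/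
def besselCoeff (a : ℝ) (m : ℕ) : ℝ := 8 / √π * ((m : ℝ) + 1) * (4 * a) ^ m / ((2 * m + 3)! : ℝ)

theorem hasSum_besselFun {a x : ℝ} (ha : 0 < a) (hx : 0 < x) :
    HasSum (fun m => besselCoeff a m * (x ^ (m + 2) / √x)) (besselFun a x) := by
  refine ((hasSum_cosh_sub_sinh (2 * √(a * x))).div_const _).congr_fun fun m => ?_
  have hsa : 0 < √a := Real.sqrt_pos.2 ha
  have hsx : 0 < √x := Real.sqrt_pos.2 hx
  have e2 : (2 * √(a * x)) ^ 2 = 4 * a * x := by
    rw [mul_pow, Real.sq_sqrt (by positivity)]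
    ring
  have ex : √x ^ 3 = x * √x := by rw [pow_succ, Real.sq_sqrt hx.le]
  have e : (2 * √(a * x)) ^ (2 * m + 3) = 8 * √a ^ 3 * (4 * a) ^ m * (x ^ (m + 1) * √x) := by
    rw [pow_add, pow_mul, e2, mul_pow (4 * a) x m, mul_pow 2 √(a * x), Real.sqrt_mul ha.le, mul_pow √a, ex,
      pow_succ x m]
    ring
  rw [e, besselCoeff, show x ^ (m + 2) / √x = x ^ (m + 1) * √x by
    rw [pow_succ x (m + 1), mul_div_assoc, Real.div_sqrt]]
  field_simp

theorem besselCoeff_mul_halfCoeff (a : ℝ) (m : ℕ) :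
    besselCoeff a m * (√π * halfCoeff (m + 2)) = a ^ m / (m ! : ℝ) := by
  have hπ : √π ≠ 0 := (Real.sqrt_pos.2 Real.pi_pos).ne'
  have f1 : ((2 * (m + 2))! : ℝ) = (2 * (m : ℝ) + 4) * ((2 * m + 3)! : ℝ) := by
    rw [show 2 * (m + 2) = 2 * m + 3 + 1 by ring, Nat.factorial_succ]
    push_cast
    ring
  have f2 : ((m + 2)! : ℝ) = ((m : ℝ) + 2) * ((m : ℝ) + 1) * (m ! : ℝ) := by
    rw [Nat.factorial_succ, Nat.factorial_succ]
    push_cast
    ring
  rw [besselCoeff, halfCoeff, f1, f2, mul_pow]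
  field_simp
  ring

/-- **The Laplace transform.** -/
theorem integral_besselFun_cexp {a : ℝ} (ha : 0 < a) {s : ℂ} (hs : 0 < s.re) :
    ∫ x in Ioi (0 : ℝ), (besselFun a x : ℂ) * cexp (-s * x) =
      cexp (a / s) / (s ^ (2⁻¹ : ℂ) * s ^ 2) := by
  have hs0 : s ≠ 0 := fun h => by simp [h] at hs
  obtain ⟨T, hT⟩ : ∃ T : ℕ → ℝ → ℂ, T = fun m (x : ℝ) =>
      (besselCoeff a m : ℂ) * (((x ^ (m + 2) / √x : ℝ) : ℂ) * cexp (-s * x)) := ⟨_, rfl⟩
  have hval : ∀ (s' : ℂ), 0 < s'.re → ∀ m : ℕ, (besselCoeff a m : ℂ) *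
      ∫ x in Ioi (0 : ℝ), ((x ^ (m + 2) / √x : ℝ) : ℂ) * cexp (-s' * x) =
        ((a : ℂ) / s') ^ m / (m ! : ℂ) / (s' ^ (2⁻¹ : ℂ) * s' ^ 2) := fun s' hs' m => by
    have hne : s' ≠ 0 := fun h => by simp [h] at hs'
    rw [integral_halfPow _ hs', ← mul_div_assoc, ← Complex.ofReal_mul, ← Complex.ofReal_mul,
      besselCoeff_mul_halfCoeff, div_pow, pow_add]
    push_cast
    field_simp
  have hnorm : ∀ m : ℕ, ∫ x in Ioi (0 : ℝ), ‖T m x‖ =
      (a / s.re) ^ m / (m ! : ℝ) / (√s.re * s.re ^ 2) := fun m => by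
    have hc : 0 ≤ besselCoeff a m := by rw [besselCoeff]; positivity
    rw [setIntegral_congr_fun measurableSet_Ioi (g := fun x : ℝ =>
      besselCoeff a m * (x ^ (m + 2) / √x * Real.exp (-s.re * x))) fun x (hx : 0 < x) => by
        simp only [hT]
        rw [norm_mul, norm_halfPow_cexp _ _ hx, Complex.norm_real, Real.norm_of_nonneg hc],
      integral_const_mul]
    refine Complex.ofReal_injective ?_
    rw [Complex.ofReal_mul, ← integral_complex_ofReal]
    have h := hval (s.re : ℂ) (by simpa using hs) m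
    rw [show ((s.re : ℂ)) ^ (2⁻¹ : ℂ) = ((√s.re : ℝ) : ℂ) by
      rw [Real.sqrt_eq_rpow, Complex.ofReal_cpow hs.le]
      norm_num] at h
    push_cast at h ⊢
    rw [← h]
  have hsum := hasSum_integral_of_summable_integral_norm (μ := volume.restrict (Ioi (0 : ℝ))) (F := T)
    (fun m => hT ▸ (integrableOn_halfPow_cexp (m + 2) hs).const_mul _) (by
      simp only [hnorm]
      exact (Real.summable_pow_div_factorial _).div_const _)
  have hpt : ∫ x in Ioi (0 : ℝ), (besselFun a x : ℂ) * cexp (-s * x) =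
      ∫ x in Ioi (0 : ℝ), ∑' m, T m x := by
    refine setIntegral_congr_fun measurableSet_Ioi fun x (hx : 0 < x) => ?_
    have h := ((Complex.hasSum_ofReal.2 (hasSum_besselFun ha hx)).mul_right (cexp (-s * x))).tsum_eq
    rw [← h]
    refine tsum_congr fun m => ?_
    rw [hT]
    push_cast
    ring
  rw [hpt]
  refine hsum.unique ?_
  have he : ∀ m, ∫ x in Ioi (0 : ℝ), T m x =
      ((a : ℂ) / s) ^ m / (m ! : ℂ) / (s ^ (2⁻¹ : ℂ) * s ^ 2) := fun m => by
    rw [← hval s hs m, hT, integral_const_mul]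
  simp only [he]
  refine HasSum.div_const ?_ _
  rw [Complex.exp_eq_exp_ℂ]
  exact NormedSpace.expSeries_div_hasSum_exp ((a : ℂ) / s)

theorem besselFun_of_nonpos {a x : ℝ} (ha : 0 ≤ a) (hx : x ≤ 0) : besselFun a x = 0 := by
  simp [besselFun, Real.sqrt_eq_zero'.2 (mul_nonpos_of_nonneg_of_nonpos ha hx)]

theorem continuous_besselFun (a : ℝ) : Continuous (besselFun a) := by
  unfold besselFun
  fun_prop

theorem abs_besselFun_le {a x : ℝ} (ha : 0 < a) (hx : 0 < x) :
    |besselFun a x * Real.exp (-x)| ≤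
      Real.exp (8 * a) / (2 * √π * √a ^ 3) * Real.exp (-(1 / 2) * x) := by
  obtain ⟨r, hr⟩ : ∃ r, r = √(a * x) := ⟨_, rfl⟩
  have hr0 : 0 ≤ r := hr ▸ Real.sqrt_nonneg _
  have h1 := cosh_sub_sinh_nonneg (show 0 ≤ 2 * r by linarith)
  rw [besselFun, ← hr, abs_mul, Real.abs_exp, abs_div, abs_of_nonneg h1,
    abs_of_pos (show 0 < 2 * √π * √a ^ 3 by positivity), div_mul_eq_mul_div, div_mul_eq_mul_div]
  refine div_le_div_of_nonneg_right ?_ (by positivity)
  have hcosh : Real.cosh (2 * r) ≤ Real.exp (2 * r) := by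
    have : Real.exp (-(2 * r)) ≤ Real.exp (2 * r) := Real.exp_le_exp.2 (by linarith)
    rw [Real.cosh_eq]
    linarith
  have h2 : 2 * r * Real.cosh (2 * r) - Real.sinh (2 * r) ≤ Real.exp (2 * r) * Real.exp (2 * r) :=
    (sub_le_self _ (Real.sinh_nonneg_iff.2 (by linarith))).trans
      (mul_le_mul (by linarith [Real.add_one_le_exp (2 * r)]) hcosh (Real.cosh_pos _).le
        (Real.exp_pos _).le)
  refine (mul_le_mul_of_nonneg_right h2 (Real.exp_pos _).le).trans ?_
  rw [← Real.exp_add, ← Real.exp_add, ← Real.exp_add, Real.exp_le_exp]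
  have h3 : r ^ 2 = a * x := by rw [hr, Real.sq_sqrt (by positivity)]
  nlinarith [sq_nonneg (r - 4 * a), sq_nonneg (4 * a - x / 4), sq_nonneg r]

/-- `f x e ^ (-x)`, complex. -/
def besselDamped (a x : ℝ) : ℂ := ((besselFun a x * Real.exp (-x) : ℝ) : ℂ)

theorem continuous_besselDamped (a : ℝ) : Continuous (besselDamped a) :=
  Complex.continuous_ofReal.comp ((continuous_besselFun a).mul (by fun_prop))

theorem besselDamped_of_notMem {a x : ℝ} (ha : 0 ≤ a) (hx : x ∉ Ioi (0 : ℝ)) :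
    besselDamped a x = 0 := by
  simp [besselDamped, besselFun_of_nonpos ha (not_lt.1 hx)]

theorem integrable_besselDamped {a : ℝ} (ha : 0 < a) : Integrable (besselDamped a) := by
  refine IntegrableOn.integrable_of_forall_notMem_eq_zero (s := Ioi (0 : ℝ)) ?_
    fun x hx => besselDamped_of_notMem ha.le hx
  refine ((exp_neg_integrableOn_Ioi 0 (show (0 : ℝ) < 1 / 2 by norm_num)).const_mul
    (Real.exp (8 * a) / (2 * √π * √a ^ 3))).mono' (continuous_besselDamped a).aestronglyMeasurable ?_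
  filter_upwards [ae_restrict_mem measurableSet_Ioi] with x hx
  rw [besselDamped, Complex.norm_real, Real.norm_eq_abs]
  exact abs_besselFun_le ha hx

theorem line_re (t : ℝ) : (1 + (t : ℂ) * I).re = 1 := by simp

theorem norm_kern_line_le {a b : ℝ} (ha : 0 ≤ a) (t : ℝ) :
    ‖kern a b (1 + (t : ℂ) * I)‖ ≤ Real.exp (b + a) * (1 + t ^ 2)⁻¹ := by
  have hn : ‖1 + (t : ℂ) * I‖ ^ 2 = 1 + t ^ 2 := by
    rw [Complex.sq_norm, Complex.normSq_apply]
    simp
    ring
  have hinv : ((1 + (t : ℂ) * I)⁻¹).re ≤ 1 := by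
    rw [Complex.inv_re, line_re, div_le_one (Complex.normSq_pos.2 fun h => by
      have := line_re t
      rw [h] at this
      simp at this), ← Complex.sq_norm, hn]
    nlinarith
  have h1 : 1 ≤ ‖1 + (t : ℂ) * I‖ := by
    refine le_trans ?_ (Complex.abs_re_le_norm _)
    rw [line_re, abs_one]
  refine (norm_kern_le (M := b + a) (by rw [line_re]; nlinarith)).trans ?_
  rw [hn, div_eq_mul_inv]
  refine mul_le_mul_of_nonneg_left (inv_anti₀ (by positivity) ?_) (Real.exp_pos _).le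
  exact le_mul_of_one_le_left (by positivity) (Real.one_le_sqrt.2 h1)

theorem continuous_kern_line (a b : ℝ) : Continuous fun t : ℝ => kern a b (1 + (t : ℂ) * I) :=
  continuous_iff_continuousAt.2 fun t => ContinuousAt.comp (g := kern a b)
    (f := fun t : ℝ => 1 + (t : ℂ) * I) (continuousAt_kern a b (by rw [line_re]; exact one_pos))
    (by fun_prop)

theorem integrable_kern_line {a : ℝ} (ha : 0 ≤ a) (b : ℝ) :
    Integrable fun t : ℝ => kern a b (1 + (t : ℂ) * I) :=
  (integrable_inv_one_add_sq.const_mul (Real.exp (b + a))).mono'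
    (continuous_kern_line a b).aestronglyMeasurable (Eventually.of_forall (norm_kern_line_le ha))

theorem fourier_besselDamped {a : ℝ} (ha : 0 < a) (ξ : ℝ) :
    𝓕 (besselDamped a) ξ = kern a 0 (1 + ((2 * π * ξ : ℝ) : ℂ) * I) := by
  rw [Real.fourier_real_eq_integral_exp_smul,
    ← setIntegral_eq_integral_of_forall_compl_eq_zero (s := Ioi (0 : ℝ))
      fun x hx => by rw [besselDamped_of_notMem ha.le hx, smul_zero]]
  have h := integral_besselFun_cexp ha (s := 1 + ((2 * π * ξ : ℝ) : ℂ) * I)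
    (by rw [line_re]; exact one_pos)
  simp only [kern, Complex.ofReal_zero, zero_mul, zero_add]
  rw [← h]
  refine setIntegral_congr_fun measurableSet_Ioi fun x _ => ?_
  rw [besselDamped, smul_eq_mul, Complex.ofReal_mul (besselFun a x), Complex.ofReal_exp,
    mul_left_comm, ← Complex.exp_add]
  congr 2
  push_cast
  ring

/-- **The integral on the line.** -/
theorem integral_kern_line {a : ℝ} (ha : 0 < a) {b : ℝ} :
    ∫ t : ℝ, kern a b (1 + (t : ℂ) * I) = ((2 * π * besselFun a b : ℝ) : ℂ) := by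
  have hF : Integrable (𝓕 (besselDamped a)) := by
    rw [show 𝓕 (besselDamped a) = fun ξ : ℝ => kern a 0 (1 + ((2 * π * ξ : ℝ) : ℂ) * I) from
      funext (fourier_besselDamped ha)]
    exact (integrable_kern_line ha.le 0).comp_mul_left' (by positivity)
  have h := (integrable_besselDamped ha).fourierInv_fourier_eq hF
    (continuous_besselDamped a).continuousAt (v := b)
  rw [Real.fourierInv_eq_fourier_neg, Real.fourier_real_eq_integral_exp_smul] at h
  simp only [fourier_besselDamped ha, smul_eq_mul] at h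
  have e : ∀ ξ : ℝ, cexp ((↑(-2 * π * ξ * -b) : ℂ) * I) *
      kern a 0 (1 + ((2 * π * ξ : ℝ) : ℂ) * I) =
        (Real.exp (-b) : ℂ) * kern a b (1 + ((2 * π * ξ : ℝ) : ℂ) * I) := fun ξ => by
    simp only [kern, ← mul_div_assoc, Complex.ofReal_exp, ← Complex.exp_add]
    congr 2
    push_cast
    ring
  simp only [e] at h
  rw [integral_const_mul, Measure.integral_comp_mul_left
    (fun t : ℝ => kern a b (1 + (t : ℂ) * I)) (2 * π), abs_of_pos (by positivity),
    Complex.real_smul, besselDamped] at h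
  have hne : (Real.exp (-b) : ℂ) ≠ 0 := Complex.ofReal_ne_zero.2 (Real.exp_pos _).ne'
  have hπ : ((2 * π : ℝ) : ℂ) ≠ 0 := Complex.ofReal_ne_zero.2 (by positivity)
  refine mul_left_cancel₀ hne (mul_left_cancel₀ (inv_ne_zero hπ) ?_)
  rw [Complex.ofReal_inv] at h
  rw [mul_left_comm, h]
  push_cast
  have hπ' : (π : ℂ) ≠ 0 := Complex.ofReal_ne_zero.2 Real.pi_ne_zero
  field_simp

end FA.RademacherPartition
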